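/-
S55 (Poitou–Tate), layer G, leaf G-SIND (helper601), part 1: the normalised valuations of the
local fields `L_𝔪` and the order maps `ord_𝔪 : J_S(L) → ℤ`.
-/
import Fermat.Agent.S55.G.Spec1b
import Fermat.Agent.S55.G.PL0H713

set_option autoImplicit false
set_option linter.unusedSectionVars false
set_option linter.style.haveILetI false

open scoped NumberField TensorProduct
open IsDedekindDomain

noncomputable section

namespace Fermat.Agent.S55.G.SIndH601

open Fermat.Agent.S55.G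

variable (S : Finset Nat.Primes) (L : Type) [Field L] [NumberField L]

/-- The ring of integers of `L_𝔪` is a discrete valuation ring. -/
lemma isDVR_intRing (𝔪 : SPlace S L) : IsDiscreteValuationRing (PL0H713.intRing S L 𝔪) :=
  (PL0H713.isLocalRingOfIntegers_intRing S L 𝔪).1

/-- The normalised valuation of the local field `L_𝔪`. -/
def locVal (𝔪 : SPlace S L) : Valuation (LocField S 𝔪) (WithZero (Multiplicative ℤ)) :=
  haveI := isDVR_intRing S L 𝔪
  (IsDiscreteValuationRing.maximalIdeal (PL0H713.intRing S L 𝔪)).valuation (LocField S 𝔪)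

/-- The order of an idèle at the place `𝔪`: `ord_𝔪 (j) = - log |j_𝔪|`. -/
def placeOrd (𝔪 : SPlace S L) : Additive (AS S L)ˣ →+ ℤ where
  toFun j := - WithZero.log (locVal S L 𝔪 (LocField.mk S 𝔪 ((j.toMul : (AS S L)ˣ) : AS S L)))
  map_zero' := by simp
  map_add' x y := by
    have hx : locVal S L 𝔪 (LocField.mk S 𝔪 ((x.toMul : (AS S L)ˣ) : AS S L)) ≠ 0 :=
      (Valuation.ne_zero_iff _).2 (IsUnit.ne_zero ((x.toMul).isUnit.map (LocField.mk S 𝔪)))
    have hy : locVal S L 𝔪 (LocField.mk S 𝔪 ((y.toMul : (AS S L)ˣ) : AS S L)) ≠ 0 :=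
      (Valuation.ne_zero_iff _).2 (IsUnit.ne_zero ((y.toMul).isUnit.map (LocField.mk S 𝔪)))
    simp only [toMul_add, Units.val_mul, map_mul, WithZero.log_mul hx hy, neg_add]

lemma placeOrd_apply (𝔪 : SPlace S L) (j : Additive (AS S L)ˣ) :
    placeOrd S L 𝔪 j =
      - WithZero.log (locVal S L 𝔪 (LocField.mk S 𝔪 ((j.toMul : (AS S L)ˣ) : AS S L))) := rfl

lemma locVal_mk_ne_zero (𝔪 : SPlace S L) (j : Additive (AS S L)ˣ) :
    locVal S L 𝔪 (LocField.mk S 𝔪 ((j.toMul : (AS S L)ˣ) : AS S L)) ≠ 0 :=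
  (Valuation.ne_zero_iff _).2 (IsUnit.ne_zero ((j.toMul).isUnit.map (LocField.mk S 𝔪)))

lemma locVal_eq_exp_neg_placeOrd (𝔪 : SPlace S L) (j : Additive (AS S L)ˣ) :
    locVal S L 𝔪 (LocField.mk S 𝔪 ((j.toMul : (AS S L)ˣ) : AS S L)) =
      WithZero.exp (- placeOrd S L 𝔪 j) := by
  rw [placeOrd_apply, neg_neg, WithZero.exp_log (locVal_mk_ne_zero S L 𝔪 j)]

lemma placeOrd_eq_zero_iff (𝔪 : SPlace S L) (j : Additive (AS S L)ˣ) :
    placeOrd S L 𝔪 j = 0 ↔
      locVal S L 𝔪 (LocField.mk S 𝔪 ((j.toMul : (AS S L)ˣ) : AS S L)) = 1 := by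
  rw [locVal_eq_exp_neg_placeOrd, WithZero.exp_eq_one, neg_eq_zero]

/-- `locVal x ≤ 1` iff `x` is integral. -/
lemma locVal_le_one_iff (𝔪 : SPlace S L) (x : LocField S 𝔪) :
    locVal S L 𝔪 x ≤ 1 ↔ x ∈ PL0H713.intRing S L 𝔪 := by
  haveI := isDVR_intRing S L 𝔪
  constructor
  · intro h
    obtain ⟨a, rfl⟩ := IsDiscreteValuationRing.exists_lift_of_le_one h
    exact a.2
  · intro h
    exact HeightOneSpectrum.valuation_le_one _ (⟨x, h⟩ : PL0H713.intRing S L 𝔪)

/-- `locVal x < 1` iff `x` is a non-unit of the ring of integers. -/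
lemma locVal_lt_one_iff (𝔪 : SPlace S L) (x : LocField S 𝔪) :
    locVal S L 𝔪 x < 1 ↔ x ∈ (PL0H713.intRing S L 𝔪).nonunits := by
  haveI := isDVR_intRing S L 𝔪
  constructor
  · intro h
    obtain ⟨a, rfl⟩ := IsDiscreteValuationRing.exists_lift_of_le_one h.le
    have h1 : (IsDiscreteValuationRing.maximalIdeal (PL0H713.intRing S L 𝔪)).valuation
        (LocField S 𝔪) (algebraMap _ (LocField S 𝔪) a) < 1 := h
    rw [HeightOneSpectrum.valuation_lt_one_iff_mem] at h1
    have h2 : a ∈ IsLocalRing.maximalIdeal (PL0H713.intRing S L 𝔪) := h1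
    rw [IsLocalRing.mem_maximalIdeal, mem_nonunits_iff] at h2
    rw [ValuationSubring.mem_nonunits_iff_exists_mem_maximalIdeal]
    exact ⟨a.2, by rwa [IsLocalRing.mem_maximalIdeal, mem_nonunits_iff]⟩
  · intro h
    rw [ValuationSubring.mem_nonunits_iff_exists_mem_maximalIdeal] at h
    obtain ⟨hx, hm⟩ := h
    have : (IsDiscreteValuationRing.maximalIdeal (PL0H713.intRing S L 𝔪)).valuation
        (LocField S 𝔪) (algebraMap _ (LocField S 𝔪) (⟨x, hx⟩ : PL0H713.intRing S L 𝔪)) < 1 := by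
      rw [HeightOneSpectrum.valuation_lt_one_iff_mem]
      exact hm
    exact this

end Fermat.Agent.S55.G.SIndH601
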