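/-
S55 (Poitou–Tate), layer G, leaf G-SIND (helper601), part 2: the map
`Φ : J_{S'}(L) × Div^{S'}(L) → J_S(L) × Div^S(L)`, `Φ (j, d) = (jRes j, divIncl d + tOrd j)`,
for `S ⊆ S'`, relative to a dictionary `β : places above S' → primes of 𝓞_L`.
-/
import Fermat.Agent.S55.G.SIndH601.Ord

set_option autoImplicit false
set_option linter.unusedSectionVars false
set_option linter.style.haveILetI false

open scoped NumberField TensorProduct
open IsDedekindDomain

noncomputable section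

namespace Fermat.Agent.S55.G.SIndH601

open Fermat.Agent.S55.G

variable {S S' : Finset Nat.Primes} (h : S ⊆ S') (L : Type) [Field L] [NumberField L]
variable (β : SPlace S' L → HeightOneSpectrum (𝓞 L))

/-- The coefficient function of `tOrd`. -/
def tOrdFun (S : Finset Nat.Primes) (j : Additive (AS S' L)ˣ) (w : PrimeOut S L) : ℤ :=
  open Classical in
  if hw : ∃ 𝔪, β 𝔪 = w.1 then placeOrd S' L hw.choose j else 0

lemma tOrdFun_of_eq (hβ : Function.Injective β) (j : Additive (AS S' L)ˣ) (w : PrimeOut S L)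
    (𝔪 : SPlace S' L) (hw : β 𝔪 = w.1) : tOrdFun L β S j w = placeOrd S' L 𝔪 j := by
  classical
  have hex : ∃ 𝔪, β 𝔪 = w.1 := ⟨𝔪, hw⟩
  have h1 : hex.choose = 𝔪 := hβ (hex.choose_spec.trans hw.symm)
  unfold tOrdFun
  rw [dif_pos hex, h1]

lemma tOrdFun_of_not (j : Additive (AS S' L)ˣ) (w : PrimeOut S L)
    (hw : ¬ ∃ 𝔪, β 𝔪 = w.1) : tOrdFun L β S j w = 0 := by
  classical
  unfold tOrdFun
  rw [dif_neg hw]

lemma tOrdFun_support_finite (j : Additive (AS S' L)ˣ) :
    (Function.support (tOrdFun L β S j)).Finite := by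
  haveI := PL0H713.finite_sPlace S' L
  have hfin : (Set.range β).Finite := Set.finite_range β
  refine (hfin.preimage (Subtype.val_injective.injOn (s := _))).subset fun w hw => ?_
  have hw' : tOrdFun L β S j w ≠ 0 := hw
  by_contra hcon
  exact hw' (tOrdFun_of_not L β j w (fun ⟨𝔪, h𝔪⟩ => hcon ⟨𝔪, h𝔪⟩))

/-- The divisor, supported on the primes `β 𝔪` not above `S`, of an `S'`-idèle:
`tOrd j = ∑_𝔪 ord_𝔪 (j) [β 𝔪]`. -/
def tOrd (S : Finset Nat.Primes) : Additive (AS S' L)ˣ →+ (PrimeOut S L →₀ ℤ) where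
  toFun j := Finsupp.ofSupportFinite (tOrdFun L β S j) (tOrdFun_support_finite L β j)
  map_zero' := by
    classical
    ext w
    simp only [Finsupp.ofSupportFinite_coe, Finsupp.coe_zero, Pi.zero_apply]
    unfold tOrdFun
    split_ifs <;> simp
  map_add' x y := by
    classical
    ext w
    simp only [Finsupp.ofSupportFinite_coe, Finsupp.coe_add, Pi.add_apply]
    unfold tOrdFun
    split_ifs <;> simp

lemma tOrd_apply (j : Additive (AS S' L)ˣ) (w : PrimeOut S L) :
    tOrd L β S j w = tOrdFun L β S j w := rfl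

lemma tOrd_of_eq (hβ : Function.Injective β) (j : Additive (AS S' L)ˣ) (w : PrimeOut S L)
    (𝔪 : SPlace S' L) (hw : β 𝔪 = w.1) : tOrd L β S j w = placeOrd S' L 𝔪 j :=
  tOrdFun_of_eq L β hβ j w 𝔪 hw

lemma tOrd_of_not (j : Additive (AS S' L)ˣ) (w : PrimeOut S L)
    (hw : ¬ ∃ 𝔪, β 𝔪 = w.1) : tOrd L β S j w = 0 :=
  tOrdFun_of_not L β j w hw

/-- The map `Φ : J_{S'}(L) × Div^{S'}(L) → J_S(L) × Div^S(L)`. -/
def Phi : JD S' L →+ JD S L :=
  AddMonoidHom.prod ((jRes h L).comp (AddMonoidHom.fst _ _))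
    ((divIncl h L).comp (AddMonoidHom.snd _ _) + (tOrd L β S).comp (AddMonoidHom.fst _ _))

lemma Phi_fst (y : JD S' L) : (Phi h L β y).1 = jRes h L y.1 := rfl

lemma Phi_snd (y : JD S' L) : (Phi h L β y).2 = divIncl h L y.2 + tOrd L β S y.1 := rfl

lemma Phi_zero_left (d : PrimeOut S' L →₀ ℤ) : Phi h L β (0, d) = (0, divIncl h L d) := by
  refine Prod.ext ?_ ?_
  · rw [Phi_fst]; simp
  · rw [Phi_snd]; simp

end Fermat.Agent.S55.G.SIndH601
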