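/-
S55 (Poitou–Tate), layer G, leaf G-SIND (helper601): INTERFACE of the sub-leaves.

`SIndepSpec` (helper421, `G/Spec1b.lean`) is assembled in `SIndH601/Assembly.lean` from
`PlacePrimeSpec` (G-PL1) and the sub-leaf statements below.  Only definitions and
`def XxxSpec : Prop`; no `sorry`.

Vocabulary (`SIndH601/Ord.lean`, `SIndH601/Phi.lean`):
* `locVal S L 𝔪`   : the normalised valuation of `L_𝔪 = LocField S 𝔪` (valuation ring
                      `PL0H713.intRing S L 𝔪`);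
* `placeOrd S L 𝔪` : `J_S(L) → ℤ`, the order at the place `𝔪`;
* `tOrd L β S`     : `J_{S'}(L) → Div^S(L)`, `j ↦ ∑_𝔪 ord_𝔪(j) [β 𝔪]` (sum over the places `𝔪` above
                      `S'` with `β 𝔪` not above `S`);
* `Phi h L β`      : `Φ (j, d) = (jRes j, divIncl d + tOrd j)`.
-/
import Fermat.Agent.S55.G.SIndH601.Phi

set_option autoImplicit false
set_option linter.unusedSectionVars false
set_option linter.style.haveILetI false

open scoped NumberField TensorProduct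
open IsDedekindDomain CategoryTheory groupCohomology

noncomputable section

namespace Fermat.Agent.S55.G.SIndH601

open Fermat.Agent.S55.G

/-- `β` is a dictionary between the places above `S` (maximal ideals of `L ⊗ ℚ_S`) and the primes
of `𝓞 L` above `S`: a Galois-equivariant bijection compatible with integrality.
(`PlacePrimeSpec` provides one: `isDict_of_placePrime`.) -/
structure IsDict (S : Finset Nat.Primes) (L : Type) [Field L] [NumberField L]
    (β : SPlace S L → HeightOneSpectrum (𝓞 L)) : Prop where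
  inj : Function.Injective β
  above : ∀ 𝔪, IsAbove S L (β 𝔪)
  surj : ∀ w, IsAbove S L w → ∃ 𝔪, β 𝔪 = w
  equiv : ∀ (G : Type) [Group G] [MulSemiringAction G L] (g : G) (𝔪 : SPlace S L),
    β (sPlaceSMul S G g 𝔪) = primeSMul G g (β 𝔪)
  integral : ∀ (𝔪 : SPlace S L) (x : 𝓞 L),
    x ∈ (β 𝔪).asIdeal ↔ toLoc S 𝔪 (x : L) ∈ (PL0H713.intRing S L 𝔪).nonunits

/-- `PlacePrimeSpec` provides a dictionary. -/
theorem isDict_of_placePrime (hPL1 : PlacePrimeSpec) (S : Finset Nat.Primes) (L : Type)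
    [Field L] [NumberField L] :
    ∃ β : SPlace S L → HeightOneSpectrum (𝓞 L), IsDict S L β := by
  obtain ⟨β, hβ1, hβ2⟩ := hPL1 S L
  refine ⟨fun 𝔪 => (β 𝔪).1, ⟨?_, fun 𝔪 => (β 𝔪).2, ?_, ?_, ?_⟩⟩
  · intro a b hab
    exact β.injective (Subtype.ext hab)
  · intro w hw
    exact ⟨β.symm ⟨w, hw⟩, by simp⟩
  · intro G _ _ g 𝔪
    exact hβ1 G g 𝔪
  · intro 𝔪 x
    exact hβ2 𝔪 (PL0H713.intRing S L 𝔪) (PL0H713.isLocalRingOfIntegers_intRing S L 𝔪) x

/-- **G-SIND-V** (valuation comparison).  For a dictionary `β`, the normalised valuation of `L_𝔪`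
restricts to the `β 𝔪`-adic valuation of `L`:  `ord_𝔪 (x ⊗ 1) = ord_{β 𝔪} (x)` for `x ∈ Lˣ`.
(The integrality clause gives `ord_𝔪 = e · ord_{β 𝔪}` on `L`; `e = 1` because `L` is dense in
`L_𝔪`, so `L` contains a uniformiser of `L_𝔪`.) -/
def OrdDiagSpec : Prop :=
  ∀ (S : Finset Nat.Primes) (L : Type) [Field L] [NumberField L]
    (β : SPlace S L → HeightOneSpectrum (𝓞 L)), IsDict S L β →
    ∀ (𝔪 : SPlace S L) (x : Additive Lˣ), placeOrd S L 𝔪 (unitsDiag S L x) = ordAt (β 𝔪) x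

/-- **G-SIND-E** (Galois invariance of the order maps).  `ord_{g 𝔪} (g j) = ord_𝔪 (j)`.
(The isomorphism `L_𝔪 ≅ L_{g 𝔪}` induced by `g ⊗ 1` is `ℚ_S`-linear, hence preserves the rings
of integers = integral closures of `ℤ_q`.) -/
def OrdEquivSpec : Prop :=
  ∀ (S : Finset Nat.Primes) (G L : Type) [Group G] [Field L] [NumberField L]
    [MulSemiringAction G L] (g : G) (𝔪 : SPlace S L) (j : Additive (AS S L)ˣ),
    placeOrd S L (sPlaceSMul S G g 𝔪) (jRepr G S L g j) = placeOrd S L 𝔪 j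

/-- **G-SIND-D** (residue characteristic).  For a dictionary `β` of `S'` and `S ⊆ S'`:
the prime `β 𝔪` lies above `S` iff the rational prime below the place `𝔪` is in `S`. -/
def AboveSpec : Prop :=
  ∀ (S S' : Finset Nat.Primes), S ⊆ S' → ∀ (L : Type) [Field L] [NumberField L]
    (β : SPlace S' L → HeightOneSpectrum (𝓞 L)), IsDict S' L β →
    ∀ 𝔪 : SPlace S' L, IsAbove S L (β 𝔪) ↔ (PL0H713.primeOf S' L 𝔪).1 ∈ S

/-- **G-SIND-X** (elements with prescribed orders; Mathlib only).  For finitely many primes `w` of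
a number field `L` and integers `n w` there is `x ∈ Lˣ` with `ord_w (x) = n w`. -/
def ExistsOrdSpec : Prop :=
  ∀ (L : Type) [Field L] [NumberField L] (W : Finset (HeightOneSpectrum (𝓞 L)))
    (n : HeightOneSpectrum (𝓞 L) → ℤ), ∃ x : Additive Lˣ, ∀ w ∈ W, ordAt w x = n w

section UT

variable {S S' : Finset Nat.Primes} (h : S ⊆ S') (G L : Type) [Group G] [Field L] [NumberField L]
  [MulSemiringAction G L] (β : SPlace S' L → HeightOneSpectrum (𝓞 L))

/-- The kernel of `Φ`, as a subgroup of `J_{S'}(L)`: the idèles with trivial `S`-components and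
unit components at the places `𝔪` with `β 𝔪` not above `S`
(`= ∏_{w | S' ∖ S} U_w`). -/
def unitsT : Submodule ℤ (Additive (AS S' L)ˣ) where
  carrier := {j | jRes h L j = 0 ∧ ∀ 𝔪 : SPlace S' L, ¬ IsAbove S L (β 𝔪) → placeOrd S' L 𝔪 j = 0}
  add_mem' := by
    rintro a b ⟨ha1, ha2⟩ ⟨hb1, hb2⟩
    refine ⟨by rw [map_add, ha1, hb1, add_zero], fun 𝔪 h𝔪 => ?_⟩
    rw [map_add, ha2 𝔪 h𝔪, hb2 𝔪 h𝔪, add_zero]
  zero_mem' := ⟨map_zero _, fun 𝔪 _ => map_zero _⟩
  smul_mem' := by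
    rintro c a ⟨ha1, ha2⟩
    refine ⟨by rw [map_zsmul, ha1, smul_zero], fun 𝔪 h𝔪 => ?_⟩
    rw [map_zsmul, ha2 𝔪 h𝔪, smul_zero]

lemma mem_unitsT_iff (j : Additive (AS S' L)ˣ) :
    j ∈ unitsT h L β ↔
      jRes h L j = 0 ∧ ∀ 𝔪 : SPlace S' L, ¬ IsAbove S L (β 𝔪) → placeOrd S' L 𝔪 j = 0 := Iff.rfl

end UT

/-- **G-SIND-U** (cohomological triviality of the kernel).  Let `S ⊆ S'`, `S ≠ ∅`, `G` finite acting
faithfully on `L`, unramified outside `S`, `β` a dictionary for `S'`, and let `U ≤ J_{S'}(L)` be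
`unitsT h L β` (`= ∏_{w | S' ∖ S} U_w`), which is stable under `G` (`hstab`).  Then
`Hⁿ(H, U) = 0` for all `H ≤ G` and `n ≥ 1`.
(Semi-local Shapiro: `U ≅ ∏_{orbits} Coind_{H_𝔪}^H U_𝔪`; `L_𝔪 / L_𝔪^{H_𝔪}` is unramified, so
`H¹(H_𝔪, U_𝔪) = H²(H_𝔪, U_𝔪) = 0` by the local layer, `H_𝔪` is cyclic, periodicity.) -/
def UnitsVanishSpec : Prop :=
  ∀ (S S' : Finset Nat.Primes) (h : S ⊆ S') (G L : Type) [Group G] [Finite G] [Field L]
    [NumberField L] [MulSemiringAction G L] [FaithfulSMul G L]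
    (β : SPlace S' L → HeightOneSpectrum (𝓞 L)), IsDict S' L β →
    S.Nonempty → IsUnramOut S G L →
    ∀ (hstab : ∀ g : G, unitsT h L β ≤ (unitsT h L β).comap (jRepr G S' L g))
      (H : Subgroup G) (n : ℕ), 0 < n →
      Limits.IsZero (groupCohomology
        (T.resSub (Rep.of ((jRepr G S' L).subrepresentation (unitsT h L β) hstab)) H) n)

end Fermat.Agent.S55.G.SIndH601
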