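/-
S55 (Poitou–Tate), layer G, leaf G-SIND, sub-leaves G-SIND-X (`ExistsOrdSpec`) and
G-SIND-D (`AboveSpec`)  — helper99.

* `existsOrd : ExistsOrdSpec` : elements of `Lˣ` with prescribed orders at finitely many primes
  (Chinese remainder theorem in `𝓞 L`).
* `above : AboveSpec` : for a dictionary `β`, the prime `β 𝔪` lies above `S` iff the rational
  prime below the place `𝔪` is in `S`.
-/
import Fermat.Agent.S55.G.SIndH601.Spec

set_option autoImplicit false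
set_option linter.unusedSectionVars false
set_option linter.style.haveILetI false

open scoped NumberField TensorProduct
open IsDedekindDomain

noncomputable section

namespace Fermat.Agent.S55.G.SIndH601.H99

open Fermat.Agent.S55.G Fermat.Agent.S55.G.SIndH601

/-! ## G-SIND-X -/

section ExistsOrd

variable {L : Type} [Field L] [NumberField L]

/-- CRT: for `w₀ ∈ W` there is `y ∈ 𝓞 L` of `w₀`-adic valuation `exp (-1)` and which is a unit at
all other primes of `W`. -/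
lemma exists_local_uniformizer (W : Finset (HeightOneSpectrum (𝓞 L)))
    (w₀ : HeightOneSpectrum (𝓞 L)) (hw₀ : w₀ ∈ W) :
    ∃ y : 𝓞 L, w₀.intValuation y = WithZero.exp (-1 : ℤ) ∧
      ∀ w ∈ W, w ≠ w₀ → w.intValuation y = 1 := by
  classical
  obtain ⟨π, hπ⟩ := w₀.intValuation_exists_uniformizer
  obtain ⟨y, hy⟩ := IsDedekindDomain.exists_forall_sub_mem_ideal (s := W)
    (fun w : HeightOneSpectrum (𝓞 L) => w.asIdeal) (fun _ => 2)
    (fun w _ => w.prime)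
    (fun w _ w' _ hne h => hne (HeightOneSpectrum.ext h))
    (fun w => if w.1 = w₀ then π else 1)
  refine ⟨y, ?_, ?_⟩
  · have h1 := hy w₀ hw₀
    simp only [if_true] at h1
    have h2 : w₀.intValuation (y - π) ≤ WithZero.exp (-((2 : ℕ) : ℤ)) :=
      (w₀.intValuation_le_pow_iff_mem _ 2).2 h1
    have h3 : w₀.intValuation (y - π) < w₀.intValuation π := by
      rw [hπ]
      refine lt_of_le_of_lt h2 ?_
      rw [WithZero.exp_lt_exp]
      norm_num
    have h4 : y = π + (y - π) := by ring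
    rw [h4, Valuation.map_add_eq_of_lt_left _ h3, hπ]
  · intro w hw hne
    have h1 := hy w hw
    simp only [hne, if_false] at h1
    rw [HeightOneSpectrum.intValuation_eq_one_iff]
    intro hmem
    have h2 : y - 1 ∈ w.asIdeal := Ideal.pow_le_self (by norm_num) h1
    have h3 : (1 : 𝓞 L) ∈ w.asIdeal := by
      have := w.asIdeal.sub_mem hmem h2
      simpa using this
    exact w.isPrime.ne_top ((Ideal.eq_top_iff_one _).2 h3)

/-- The same as a unit of `L`, in terms of `ordAt`. -/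
lemma exists_ordAt_single (W : Finset (HeightOneSpectrum (𝓞 L)))
    (w₀ : HeightOneSpectrum (𝓞 L)) (hw₀ : w₀ ∈ W) :
    ∃ x : Additive Lˣ, ordAt w₀ x = 1 ∧ ∀ w ∈ W, w ≠ w₀ → ordAt w x = 0 := by
  obtain ⟨y, hy1, hy2⟩ := exists_local_uniformizer W w₀ hw₀
  have hy0 : (algebraMap (𝓞 L) L y) ≠ 0 := by
    intro h
    have : y = 0 := (FaithfulSMul.algebraMap_injective (𝓞 L) L) (by rw [h, map_zero])
    rw [this, map_zero] at hy1
    exact (WithZero.exp_ne_zero).symm hy1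
  refine ⟨Additive.ofMul (Units.mk0 _ hy0), ?_, ?_⟩
  · rw [ordAt_apply]
    simp only [toMul_ofMul, Units.val_mk0]
    rw [HeightOneSpectrum.valuation_of_algebraMap, hy1, WithZero.log_exp]
    norm_num
  · intro w hw hne
    rw [ordAt_apply]
    simp only [toMul_ofMul, Units.val_mk0]
    rw [HeightOneSpectrum.valuation_of_algebraMap, hy2 w hw hne, WithZero.log_one, neg_zero]

/-- **G-SIND-X.** -/
theorem existsOrd : ExistsOrdSpec := by
  intro L _ _ W n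
  classical
  choose! x hx1 hx2 using fun (w₀ : HeightOneSpectrum (𝓞 L)) (hw₀ : w₀ ∈ W) =>
    exists_ordAt_single W w₀ hw₀
  refine ⟨∑ w' ∈ W, n w' • x w', fun w hw => ?_⟩
  rw [map_sum, Finset.sum_eq_single w]
  · rw [map_zsmul, hx1 w hw, smul_eq_mul, mul_one]
  · intro w' hw' hne
    rw [map_zsmul, hx2 w' hw' w hw (Ne.symm hne), smul_zero]
  · intro h
    exact absurd hw h

end ExistsOrd

/-! ## G-SIND-D -/

section Above

open Fermat.Agent.S55.Local

/-- `1 / q` is not integral over `ℤ_q` in a field extension of `ℚ_q`. -/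
lemma not_isInt_inv_p (q : ℕ) [Fact q.Prime] (E : Type) [Field E] [Algebra ℚ_[q] E] :
    ¬ IsInt ℤ_[q] ℚ_[q] E (((q : ℕ) : E)⁻¹) := by
  intro h
  letI : Algebra ℤ_[q] E := (toL ℤ_[q] ℚ_[q] E).toAlgebra
  haveI : IsScalarTower ℤ_[q] ℚ_[q] E := IsScalarTower.of_algebraMap_eq (fun _ => rfl)
  have h1 : IsIntegral ℤ_[q] (algebraMap ℚ_[q] E (((q : ℕ) : ℚ_[q])⁻¹)) := by
    have : algebraMap ℚ_[q] E (((q : ℕ) : ℚ_[q])⁻¹) = ((q : ℕ) : E)⁻¹ := by
      rw [map_inv₀, map_natCast]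
    rw [this]
    exact h
  have h2 : IsIntegral ℤ_[q] (((q : ℕ) : ℚ_[q])⁻¹) :=
    (isIntegral_algebraMap_iff (algebraMap ℚ_[q] E).injective).1 h1
  obtain ⟨y, hy⟩ := IsIntegrallyClosed.isIntegral_iff.1 h2
  have hq0 : ((q : ℕ) : ℚ_[q]) ≠ 0 := by
    exact_mod_cast (Fact.out : q.Prime).ne_zero
  have h3 : ((q : ℕ) : ℤ_[q]) * y = 1 := by
    apply PadicInt.ext
    push_cast
    have hy' : (y : ℚ_[q]) = ((q : ℕ) : ℚ_[q])⁻¹ := hy
    rw [hy', mul_inv_cancel₀ hq0]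
  exact PadicInt.p_nonunit (p := q) (IsUnit.of_mul_eq_one _ h3)

/-- If `q ≠ q₀` are primes, `1 / q` is integral over `ℤ_{q₀}`. -/
lemma isInt_inv_of_ne (q₀ : ℕ) [Fact q₀.Prime] (E : Type) [Field E] [Algebra ℚ_[q₀] E]
    (q : ℕ) (hq : q.Prime) (hne : q ≠ q₀) :
    IsInt ℤ_[q₀] ℚ_[q₀] E (((q : ℕ) : E)⁻¹) := by
  have hu : IsUnit ((q : ℕ) : ℤ_[q₀]) := by
    rw [PadicInt.isUnit_iff, PadicInt.norm_natCast_eq_one_iff]
    exact (Nat.coprime_primes (Fact.out : q₀.Prime) hq).2 (Ne.symm hne)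
  obtain ⟨u, hu⟩ := hu
  have h1 : toL ℤ_[q₀] ℚ_[q₀] E ((u⁻¹ : (ℤ_[q₀])ˣ) : ℤ_[q₀]) = ((q : ℕ) : E)⁻¹ := by
    have h2 : toL ℤ_[q₀] ℚ_[q₀] E ((u⁻¹ : (ℤ_[q₀])ˣ) : ℤ_[q₀]) *
        toL ℤ_[q₀] ℚ_[q₀] E ((u : (ℤ_[q₀])ˣ) : ℤ_[q₀]) = 1 := by
      rw [← map_mul, Units.inv_mul, map_one]
    rw [hu, map_natCast] at h2
    exact eq_inv_of_mul_eq_one_left h2
  rw [← h1]
  exact isInt_toL _ _ _ _

variable (S : Finset Nat.Primes) (L : Type) [Field L] [NumberField L]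

/-- The image of a prime number `q` in `L_𝔪` is a non-unit of the ring of integers iff `q` is the
rational prime below `𝔪`. -/
lemma natCast_mem_nonunits_iff (𝔪 : SPlace S L) (q : Nat.Primes) :
    (((q : ℕ) : ℕ) : LocField S 𝔪) ∈ (PL0H713.intRing S L 𝔪).nonunits ↔
      q = (PL0H713.primeOf S L 𝔪).1 := by
  haveI : Fact (Nat.Prime ((PL0H713.primeOf S L 𝔪).1 : ℕ)) := ⟨(PL0H713.primeOf S L 𝔪).1.2⟩
  letI := PL0H713.algQq S L 𝔪
  haveI := PL0H713.charZero_locField S L 𝔪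
  have hq0 : (((q : ℕ) : ℕ) : LocField S 𝔪) ≠ 0 := by
    exact_mod_cast q.2.ne_zero
  rw [ValuationSubring.mem_nonunits_iff_or]
  have hmem : ∀ x : LocField S 𝔪, x ∈ PL0H713.intRing S L 𝔪 ↔
      IsInt ℤ_[((PL0H713.primeOf S L 𝔪).1 : ℕ)] ℚ_[((PL0H713.primeOf S L 𝔪).1 : ℕ)]
        (LocField S 𝔪) x := fun x => Iff.rfl
  rw [hmem]
  constructor
  · rintro (h | h)
    · exact absurd h hq0
    · by_contra hne
      refine h (isInt_inv_of_ne _ _ (q : ℕ) q.2 ?_)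
      intro h'
      exact hne (Subtype.ext h')
  · intro h
    right
    rw [h]
    exact not_isInt_inv_p _ _

/-- **G-SIND-D.** -/
theorem above : AboveSpec := by
  intro S S' _ L _ _ β hβ 𝔪
  have key : ∀ q : Nat.Primes, ((q : ℕ) : 𝓞 L) ∈ (β 𝔪).asIdeal ↔
      q = (PL0H713.primeOf S' L 𝔪).1 := by
    intro q
    rw [hβ.integral 𝔪 ((q : ℕ) : 𝓞 L)]
    have h2 : toLoc S' 𝔪 ((((q : ℕ) : 𝓞 L)) : L) = (((q : ℕ) : ℕ) : LocField S' 𝔪) := by
      have h3 : ((((q : ℕ) : 𝓞 L)) : L) = (((q : ℕ) : ℕ) : L) :=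
        map_natCast (algebraMap (𝓞 L) L) (q : ℕ)
      rw [h3]
      exact map_natCast (toLoc S' 𝔪) (q : ℕ)
    rw [h2]
    exact natCast_mem_nonunits_iff S' L 𝔪 q
  constructor
  · rintro ⟨q, hqS, hq⟩
    rw [← (key q).1 hq]
    exact hqS
  · intro h
    exact ⟨(PL0H713.primeOf S' L 𝔪).1, h, (key _).2 rfl⟩

end Above

end Fermat.Agent.S55.G.SIndH601.H99
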