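/-
S55 (Poitou–Tate), layer G, leaf G-SIND (helper601), part 3: properties of `Φ`
(compatibility with the diagonal embeddings, equivariance, kernel).
-/
import Fermat.Agent.S55.G.SIndH601.Spec

set_option autoImplicit false
set_option linter.unusedSectionVars false
set_option linter.style.haveILetI false

open scoped NumberField TensorProduct
open IsDedekindDomain

noncomputable section

namespace Fermat.Agent.S55.G.SIndH601

open Fermat.Agent.S55.G

variable {S S' : Finset Nat.Primes} (h : S ⊆ S') (L : Type) [Field L] [NumberField L]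
variable (β : SPlace S' L → HeightOneSpectrum (𝓞 L))

/-! ## Primes above `S'` and the inclusion `Div^{S'} → Div^S` -/

lemma divIncl_of_isAbove (d : PrimeOut S' L →₀ ℤ) (w : PrimeOut S L) (hw : IsAbove S' L w.1) :
    divIncl h L d w = 0 := by
  apply Finsupp.mapDomain_of_notMem_range
  rintro ⟨w', hw'⟩
  apply w'.2
  have : w'.1 = w.1 := congrArg Subtype.val hw'
  rw [this]
  exact hw

lemma divIncl_of_not_isAbove (d : PrimeOut S' L →₀ ℤ) (w : PrimeOut S L)
    (hw : ¬ IsAbove S' L w.1) : divIncl h L d w = d ⟨w.1, hw⟩ := by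
  have : w = primeOutIncl h L ⟨w.1, hw⟩ := Subtype.ext rfl
  conv_lhs => rw [this]
  exact divIncl_apply h L d ⟨w.1, hw⟩

/-! ## The divisor `tOrd` -/

variable {L β}

lemma tOrd_of_not_isAbove (hβ : IsDict S' L β) (j : Additive (AS S' L)ˣ) (w : PrimeOut S L)
    (hw : ¬ IsAbove S' L w.1) : tOrd L β S j w = 0 := by
  apply tOrd_of_not
  rintro ⟨𝔪, h𝔪⟩
  exact hw (h𝔪 ▸ hβ.above 𝔪)

lemma tOrd_of_isAbove (hβ : IsDict S' L β) (j : Additive (AS S' L)ˣ) (w : PrimeOut S L)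
    (hw : IsAbove S' L w.1) :
    ∃ 𝔪 : SPlace S' L, β 𝔪 = w.1 ∧ tOrd L β S j w = placeOrd S' L 𝔪 j := by
  obtain ⟨𝔪, h𝔪⟩ := hβ.surj w.1 hw
  exact ⟨𝔪, h𝔪, tOrd_of_eq L β hβ.inj j w 𝔪 h𝔪⟩

/-- `Φ` is compatible with the diagonal embeddings of `Lˣ`. -/
theorem Phi_diagHom (hV : OrdDiagSpec) (hβ : IsDict S' L β) (x : Additive Lˣ) :
    Phi h L β (diagHom S' L x) = diagHom S L x := by
  refine Prod.ext ?_ ?_
  · rw [Phi_fst, diagHom_fst, diagHom_fst, jRes_unitsDiag]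
  · rw [Phi_snd, diagHom_snd, diagHom_snd, diagHom_fst]
    ext w
    rw [Finsupp.add_apply, ordHom_apply]
    by_cases hw : IsAbove S' L w.1
    · obtain ⟨𝔪, h𝔪, h1⟩ := tOrd_of_isAbove hβ (unitsDiag S' L x) w hw
      rw [divIncl_of_isAbove h L _ w hw, h1, hV S' L β hβ 𝔪 x, h𝔪, zero_add]
    · rw [divIncl_of_not_isAbove h L _ w hw, tOrd_of_not_isAbove hβ _ w hw, ordHom_apply,
        add_zero]

/-! ## Equivariance -/

section Equivariance

variable (G : Type) [Group G] [MulSemiringAction G L]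

lemma sPlaceSMul_inv_smul (g : G) (𝔪 : SPlace S' L) :
    sPlaceSMul S' G g (sPlaceSMul S' G g⁻¹ 𝔪) = 𝔪 := by
  have h1 := (sPlaceAction S' G L).mul_smul g g⁻¹ 𝔪
  have h2 := (sPlaceAction S' G L).one_smul 𝔪
  rw [mul_inv_cancel] at h1
  exact h1.symm.trans h2

lemma primeSMul_inv_smul (g : G) (w : HeightOneSpectrum (𝓞 L)) :
    primeSMul G g (primeSMul G g⁻¹ w) = w := by
  have h1 := (primeAction G L).mul_smul g g⁻¹ w
  have h2 := (primeAction G L).one_smul w
  rw [mul_inv_cancel] at h1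
  exact h1.symm.trans h2

lemma primeSMul_smul_inv (g : G) (w : HeightOneSpectrum (𝓞 L)) :
    primeSMul G g⁻¹ (primeSMul G g w) = w := by
  have h1 := (primeAction G L).mul_smul g⁻¹ g w
  have h2 := (primeAction G L).one_smul w
  rw [inv_mul_cancel] at h1
  exact h1.symm.trans h2

theorem tOrd_equivariant (hE : OrdEquivSpec) (hβ : IsDict S' L β) (g : G)
    (j : Additive (AS S' L)ˣ) :
    tOrd L β S (jRepr G S' L g j) = divRepr S G L g (tOrd L β S j) := by
  ext w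
  have hw : w = primeOutMap S G L g (primeOutMap S G L g⁻¹ w) := by
    rw [← primeOutMap_mul, mul_inv_cancel, primeOutMap_one]
  set w' := primeOutMap S G L g⁻¹ w with hw'
  have hw1 : w.1 = primeSMul G g w'.1 := by
    conv_lhs => rw [hw]
    rfl
  rw [hw, divRepr_apply_apply]
  by_cases hex : ∃ 𝔪, β 𝔪 = w'.1
  · obtain ⟨𝔪, h𝔪⟩ := hex
    have h1 : β (sPlaceSMul S' G g 𝔪) = (primeOutMap S G L g w').1 := by
      rw [hβ.equiv G g 𝔪, h𝔪]
      rfl
    rw [tOrd_of_eq L β hβ.inj _ _ (sPlaceSMul S' G g 𝔪) h1, tOrd_of_eq L β hβ.inj _ _ 𝔪 h𝔪,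
      hE S' G L g 𝔪 j]
  · rw [tOrd_of_not L β j w' hex]
    apply tOrd_of_not
    rintro ⟨𝔫, h𝔫⟩
    apply hex
    refine ⟨sPlaceSMul S' G g⁻¹ 𝔫, ?_⟩
    rw [hβ.equiv G g⁻¹ 𝔫, h𝔫]
    change primeSMul G g⁻¹ (primeSMul G g w'.1) = w'.1
    exact primeSMul_smul_inv G g w'.1

/-- `Φ` is `G`-equivariant. -/
theorem Phi_equivariant (hE : OrdEquivSpec) (hβ : IsDict S' L β) (g : G) (y : JD S' L) :
    Phi h L β (jdRepr S' G L g y) = jdRepr S G L g (Phi h L β y) := by
  refine Prod.ext ?_ ?_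
  · change jRes h L (jRepr G S' L g y.1) = jRepr G S L g (jRes h L y.1)
    exact jRes_equivariant h L G g y.1
  · change divIncl h L (divRepr S' G L g y.2) + tOrd L β S (jRepr G S' L g y.1) =
      divRepr S G L g (divIncl h L y.2 + tOrd L β S y.1)
    rw [divIncl_equivariant, tOrd_equivariant G hE hβ, map_add]

end Equivariance

/-! ## The kernel -/

theorem Phi_eq_zero_iff (hβ : IsDict S' L β) (y : JD S' L) :
    Phi h L β y = 0 ↔ y.2 = 0 ∧ y.1 ∈ unitsT h L β := by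
  constructor
  · intro hy
    have h1 : jRes h L y.1 = 0 := congrArg Prod.fst hy
    have h2 : divIncl h L y.2 + tOrd L β S y.1 = 0 := congrArg Prod.snd hy
    have h3 : y.2 = 0 := by
      ext w'
      have key : (divIncl h L y.2 + tOrd L β S y.1) (primeOutIncl h L w') = 0 := by
        rw [h2]; rfl
      rw [Finsupp.add_apply, divIncl_apply,
        tOrd_of_not_isAbove (S := S) hβ y.1 (primeOutIncl h L w') w'.2, add_zero] at key
      rw [key]; rfl
    refine ⟨h3, h1, fun 𝔪 h𝔪 => ?_⟩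
    have key : (divIncl h L y.2 + tOrd L β S y.1) (⟨β 𝔪, h𝔪⟩ : PrimeOut S L) = 0 := by
      rw [h2]; rfl
    rw [Finsupp.add_apply, divIncl_of_isAbove h L _ _ (hβ.above 𝔪),
      tOrd_of_eq L β hβ.inj y.1 (⟨β 𝔪, h𝔪⟩ : PrimeOut S L) 𝔪 rfl, zero_add] at key
    exact key
  · rintro ⟨h2, h1, h3⟩
    refine Prod.ext h1 ?_
    rw [Phi_snd, h2, map_zero, zero_add]
    ext w
    by_cases hw : IsAbove S' L w.1
    · obtain ⟨𝔪, h𝔪, h4⟩ := tOrd_of_isAbove hβ y.1 w hw
      rw [h4]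
      exact h3 𝔪 (h𝔪 ▸ w.2)
    · exact tOrd_of_not_isAbove hβ _ w hw

/-- `unitsT` is stable under the Galois action. -/
theorem unitsT_stable (G : Type) [Group G] [MulSemiringAction G L] (hE : OrdEquivSpec)
    (hβ : IsDict S' L β) (g : G) :
    unitsT h L β ≤ (unitsT h L β).comap (jRepr G S' L g) := by
  intro j hj
  have h1 : Phi h L β ((j, 0) : JD S' L) = 0 := (Phi_eq_zero_iff h hβ _).2 ⟨rfl, hj⟩
  have h2 : Phi h L β (jdRepr S' G L g ((j, 0) : JD S' L)) = 0 := by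
    rw [Phi_equivariant h G hE hβ, h1, map_zero]
  exact ((Phi_eq_zero_iff h hβ _).1 h2).2

end Fermat.Agent.S55.G.SIndH601
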