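/-
S55 (Poitou–Tate), layer G, leaf G-SIND (helper601), part 4: the idempotent `e = 1 ⊗ 1_S` of
`L ⊗ ℚ_{S'}`, lifting of units along `J_{S'}(L) → J_S(L)`, and surjectivity of `Φ`.
-/
import Fermat.Agent.S55.G.SIndH601.PhiProps

set_option autoImplicit false
set_option linter.unusedSectionVars false
set_option linter.style.haveILetI false

open scoped NumberField TensorProduct
open IsDedekindDomain

noncomputable section

namespace Fermat.Agent.S55.G.SIndH601

open Fermat.Agent.S55.G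

variable {S S' : Finset Nat.Primes} (h : S ⊆ S')
include h

/-! ## The indicator of `S` in `ℚ_{S'}` and extension by zero -/

/-- The indicator function of `S` in `ℚ_{S'} = ∏_{q ∈ S'} ℚ_q`. -/
def indS (S : Finset Nat.Primes) (S' : Finset Nat.Primes) : QS S' :=
  open Classical in
  (QS.toPi S').symm (fun q => if q.1 ∈ S then 1 else 0)

omit h in
lemma toPi_indS (q : S') :
    QS.toPi S' (indS S S') q = (open Classical in if q.1 ∈ S then (1 : Qq q.1) else 0) := rfl

omit h in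
lemma toPi_indS_of_mem (q : S') (hq : q.1 ∈ S) : QS.toPi S' (indS S S') q = 1 := by
  classical
  rw [toPi_indS, if_pos hq]

omit h in
lemma toPi_indS_of_notMem (q : S') (hq : q.1 ∉ S) : QS.toPi S' (indS S S') q = 0 := by
  classical
  rw [toPi_indS, if_neg hq]

lemma res_indS : QS.res h (indS S S') = 1 := by
  refine PL0H713.QS_ext S fun q => ?_
  rw [QS.res_apply, toPi_indS_of_mem ⟨q.1, h q.2⟩ q.2]
  rfl

/-- The coefficient function of the extension by zero. -/
def ext0Fun (y : QS S) (q : S') : Qq q.1 :=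
  open Classical in
  if hq : q.1 ∈ S then QS.toPi S y ⟨q.1, hq⟩ else 0

omit h in
lemma ext0Fun_of_mem (y : QS S) (q : S') (hq : q.1 ∈ S) :
    ext0Fun y q = QS.toPi S y ⟨q.1, hq⟩ := by
  classical
  unfold ext0Fun
  rw [dif_pos hq]

omit h in
lemma ext0Fun_of_notMem (y : QS S) (q : S') (hq : q.1 ∉ S) : ext0Fun y q = 0 := by
  classical
  unfold ext0Fun
  rw [dif_neg hq]

/-- Extension by zero `ℚ_S → ℚ_{S'}`. -/
def ext0 : QS S →ₗ[ℚ] QS S' where
  toFun y := (QS.toPi S').symm (ext0Fun y)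
  map_add' x y := by
    refine PL0H713.QS_ext S' fun q => ?_
    change ext0Fun (x + y) q = ext0Fun x q + ext0Fun y q
    by_cases hq : q.1 ∈ S
    · rw [ext0Fun_of_mem _ q hq, ext0Fun_of_mem _ q hq, ext0Fun_of_mem _ q hq]
      rfl
    · rw [ext0Fun_of_notMem _ q hq, ext0Fun_of_notMem _ q hq, ext0Fun_of_notMem _ q hq, add_zero]
  map_smul' c y := by
    refine PL0H713.QS_ext S' fun q => ?_
    change ext0Fun (c • y) q = c • ext0Fun y q
    by_cases hq : q.1 ∈ S
    · rw [ext0Fun_of_mem _ q hq, ext0Fun_of_mem _ q hq]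
      rfl
    · rw [ext0Fun_of_notMem _ q hq, ext0Fun_of_notMem _ q hq, smul_zero]

omit h in
lemma toPi_ext0_of_mem (y : QS S) (q : S') (hq : q.1 ∈ S) :
    QS.toPi S' (ext0 (S' := S') y) q = QS.toPi S y ⟨q.1, hq⟩ :=
  ext0Fun_of_mem y q hq

omit h in
lemma toPi_ext0_of_notMem (y : QS S) (q : S') (hq : q.1 ∉ S) :
    QS.toPi S' (ext0 (S' := S') y) q = 0 :=
  ext0Fun_of_notMem y q hq

lemma ext0_res (y : QS S') : ext0 (QS.res h y) = y * indS S S' := by
  refine PL0H713.QS_ext S' fun q => ?_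
  rw [map_mul, Pi.mul_apply]
  by_cases hq : q.1 ∈ S
  · rw [toPi_ext0_of_mem _ q hq, toPi_indS_of_mem q hq, mul_one, QS.res_apply]
  · rw [toPi_ext0_of_notMem _ q hq, toPi_indS_of_notMem q hq, mul_zero]

lemma res_ext0 (y : QS S) : QS.res h (ext0 (S' := S') y) = y := by
  refine PL0H713.QS_ext S fun q => ?_
  rw [QS.res_apply, toPi_ext0_of_mem _ ⟨q.1, h q.2⟩ q.2]

/-! ## The idempotent `e` and the section `σ` -/

variable (L : Type) [Field L] [NumberField L]

/-- The idempotent `e = 1 ⊗ 1_S` of `L ⊗ ℚ_{S'}`. -/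
def eS (S : Finset Nat.Primes) (S' : Finset Nat.Primes) : AS S' L := asIncl S' L (indS S S')

/-- The (non-unital) section `σ : L ⊗ ℚ_S → L ⊗ ℚ_{S'}` of `asRes`. -/
def sec (S : Finset Nat.Primes) (S' : Finset Nat.Primes) : AS S L →ₗ[ℚ] AS S' L :=
  TensorProduct.map LinearMap.id (ext0 (S := S) (S' := S'))

omit h in
lemma sec_tmul (l : L) (y : QS S) : sec L S S' (l ⊗ₜ[ℚ] y) = l ⊗ₜ[ℚ] ext0 (S' := S') y := rfl

lemma mul_eS (a : AS S' L) : a * eS L S S' = sec L S S' (asRes h L a) := by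
  induction a using TensorProduct.induction_on with
  | zero => simp
  | tmul l y =>
    rw [asRes_tmul, sec_tmul, ext0_res h]
    change (l ⊗ₜ[ℚ] y) * ((1 : L) ⊗ₜ[ℚ] indS S S') = _
    rw [Algebra.TensorProduct.tmul_mul_tmul, mul_one]
  | add a b ha hb => rw [add_mul, ha, hb, map_add, map_add]

lemma asRes_sec (a : AS S L) : asRes h L (sec L S S' a) = a := by
  induction a using TensorProduct.induction_on with
  | zero => simp
  | tmul l y => rw [sec_tmul, asRes_tmul, res_ext0 h]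
  | add a b ha hb => rw [map_add, map_add, ha, hb]

lemma asRes_eS : asRes h L (eS L S S') = 1 := by
  change asRes h L ((1 : L) ⊗ₜ[ℚ] indS S S') = 1
  rw [asRes_tmul, res_indS h]
  rfl

lemma eS_eq_sec_one : eS L S S' = sec L S S' 1 := by
  have := mul_eS h L (1 : AS S' L)
  rwa [one_mul, map_one] at this

lemma sec_mul_eS (a : AS S L) : sec L S S' a * eS L S S' = sec L S S' a := by
  rw [mul_eS h L, asRes_sec h L]

lemma sec_mul_sec (a b : AS S L) : sec L S S' a * sec L S S' b = sec L S S' (a * b) := by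
  have h1 := mul_eS h L (sec L S S' a * sec L S S' b)
  rw [map_mul, asRes_sec h L, asRes_sec h L, mul_assoc, sec_mul_eS h L] at h1
  exact h1

lemma eS_mul_eS : eS L S S' * eS L S S' = eS L S S' := by
  rw [mul_eS h L, asRes_eS h L, ← eS_eq_sec_one h L]

lemma sec_mul_one_sub (a : AS S L) : sec L S S' a * (1 - eS L S S') = 0 := by
  rw [mul_sub, mul_one, sec_mul_eS h L, sub_self]

/-- The unit `σ(j) + (1 - e) (x ⊗ 1)` of `L ⊗ ℚ_{S'}`: `S`-components `j`, the other components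
`x`. -/
def liftUnit (j : (AS S L)ˣ) (x : Lˣ) : (AS S' L)ˣ where
  val := sec L S S' (j : AS S L) + (1 - eS L S S') * asDiag S' L (x : L)
  inv := sec L S S' ((j⁻¹ : (AS S L)ˣ) : AS S L) + (1 - eS L S S') * asDiag S' L ((x⁻¹ : Lˣ) : L)
  val_inv := by
    have h1 : sec L S S' (j : AS S L) * sec L S S' ((j⁻¹ : (AS S L)ˣ) : AS S L) = eS L S S' := by
      rw [sec_mul_sec h L, Units.mul_inv, ← eS_eq_sec_one h L]
    have h2 := sec_mul_one_sub h L (j : AS S L)
    have h3 := sec_mul_one_sub h L ((j⁻¹ : (AS S L)ˣ) : AS S L)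
    have h4 : asDiag S' L (x : L) * asDiag S' L ((x⁻¹ : Lˣ) : L) = 1 := by
      rw [← map_mul, Units.mul_inv, map_one]
    have h5 : (1 - eS L S S') * (1 - eS L S S') = 1 - eS L S S' := by
      have := eS_mul_eS h L
      linear_combination this
    linear_combination h1 + asDiag S' L ((x⁻¹ : Lˣ) : L) * h2 + asDiag S' L (x : L) * h3 +
      (1 - eS L S S') * (1 - eS L S S') * h4 + h5
  inv_val := by
    have h1 : sec L S S' ((j⁻¹ : (AS S L)ˣ) : AS S L) * sec L S S' (j : AS S L) = eS L S S' := by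
      rw [sec_mul_sec h L, Units.inv_mul, ← eS_eq_sec_one h L]
    have h2 := sec_mul_one_sub h L (j : AS S L)
    have h3 := sec_mul_one_sub h L ((j⁻¹ : (AS S L)ˣ) : AS S L)
    have h4 : asDiag S' L ((x⁻¹ : Lˣ) : L) * asDiag S' L (x : L) = 1 := by
      rw [← map_mul, Units.inv_mul, map_one]
    have h5 : (1 - eS L S S') * (1 - eS L S S') = 1 - eS L S S' := by
      have := eS_mul_eS h L
      linear_combination this
    linear_combination h1 + asDiag S' L ((x⁻¹ : Lˣ) : L) * h2 + asDiag S' L (x : L) * h3 +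
      (1 - eS L S S') * (1 - eS L S S') * h4 + h5

lemma coe_liftUnit (j : (AS S L)ˣ) (x : Lˣ) :
    ((liftUnit h L j x : (AS S' L)ˣ) : AS S' L) =
      sec L S S' (j : AS S L) + (1 - eS L S S') * asDiag S' L (x : L) := rfl

lemma asRes_liftUnit (j : (AS S L)ˣ) (x : Lˣ) :
    asRes h L ((liftUnit h L j x : (AS S' L)ˣ) : AS S' L) = j := by
  rw [coe_liftUnit, map_add, asRes_sec h L, map_mul, map_sub, map_one, asRes_eS h L, sub_self,
    zero_mul, add_zero]

lemma jRes_liftUnit (j : (AS S L)ˣ) (x : Lˣ) :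
    jRes h L (Additive.ofMul (liftUnit h L j x)) = Additive.ofMul j := by
  apply Additive.toMul.injective
  apply Units.ext
  exact asRes_liftUnit h L j x

/-! ## Places not above `S` -/

variable {L}

omit h in
lemma mk_eS_of_notMem (𝔪 : SPlace S' L) (h𝔪 : (PL0H713.primeOf S' L 𝔪).1 ∉ S) :
    LocField.mk S' 𝔪 (eS L S S') = 0 := by
  change LocField.ofQS S' 𝔪 (indS S S') = 0
  rw [PL0H713.ofQS_eq, toPi_indS_of_notMem _ h𝔪, map_zero]

omit h in
lemma mk_eS_of_mem (𝔪 : SPlace S' L) (h𝔪 : (PL0H713.primeOf S' L 𝔪).1 ∈ S) :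
    LocField.mk S' 𝔪 (eS L S S') = 1 := by
  change LocField.ofQS S' 𝔪 (indS S S') = 1
  rw [PL0H713.ofQS_eq, toPi_indS_of_mem _ h𝔪, map_one]

lemma mk_liftUnit (j : (AS S L)ˣ) (x : Lˣ) (𝔪 : SPlace S' L)
    (h𝔪 : (PL0H713.primeOf S' L 𝔪).1 ∉ S) :
    LocField.mk S' 𝔪 ((liftUnit h L j x : (AS S' L)ˣ) : AS S' L) = toLoc S' 𝔪 (x : L) := by
  have h1 : sec L S S' (j : AS S L) = sec L S S' (j : AS S L) * eS L S S' :=
    (sec_mul_eS h L _).symm
  rw [coe_liftUnit, map_add, h1, map_mul, map_mul, map_sub, map_one, mk_eS_of_notMem 𝔪 h𝔪,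
    mul_zero, sub_zero, one_mul, zero_add]
  rfl

lemma placeOrd_liftUnit (j : (AS S L)ˣ) (x : Lˣ) (𝔪 : SPlace S' L)
    (h𝔪 : (PL0H713.primeOf S' L 𝔪).1 ∉ S) :
    placeOrd S' L 𝔪 (Additive.ofMul (liftUnit h L j x)) =
      placeOrd S' L 𝔪 (unitsDiag S' L (Additive.ofMul x)) := by
  rw [placeOrd_apply, placeOrd_apply, toMul_ofMul, mk_liftUnit h j x 𝔪 h𝔪]
  rfl

/-! ## Surjectivity of `Φ` -/

variable {β : SPlace S' L → HeightOneSpectrum (𝓞 L)}

/-- `Φ` is surjective. -/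
theorem Phi_surjective (hV : OrdDiagSpec) (hD : AboveSpec) (hX : ExistsOrdSpec)
    (hβ : IsDict S' L β) : Function.Surjective (Phi h L β) := by
  classical
  rintro ⟨j, d⟩
  haveI := PL0H713.finite_sPlace S' L
  haveI : Fintype (SPlace S' L) := Fintype.ofFinite _
  -- an element with the prescribed orders at the primes above `S' ∖ S`
  obtain ⟨x, hx⟩ := hX L (Finset.univ.image β)
    (fun w => if hw : ¬ IsAbove S L w then d (⟨w, hw⟩ : PrimeOut S L) else 0)
  refine ⟨(Additive.ofMul (liftUnit h L j.toMul x.toMul),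
    Finsupp.comapDomain (primeOutIncl h L) d (primeOutIncl_injective h L).injOn), ?_⟩
  refine Prod.ext ?_ ?_
  · rw [Phi_fst]
    exact jRes_liftUnit h L j.toMul x.toMul
  · rw [Phi_snd]
    ext w
    rw [Finsupp.add_apply]
    by_cases hw : IsAbove S' L w.1
    · obtain ⟨𝔪, h𝔪, h1⟩ := tOrd_of_isAbove hβ
        (Additive.ofMul (liftUnit h L j.toMul x.toMul)) w hw
      have h2 : (PL0H713.primeOf S' L 𝔪).1 ∉ S := fun hmem =>
        w.2 (h𝔪 ▸ (hD S S' h L β hβ 𝔪).2 hmem)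
      have h3 : ¬ IsAbove S L (β 𝔪) := h𝔪 ▸ w.2
      rw [divIncl_of_isAbove h L _ w hw, h1, placeOrd_liftUnit h _ _ 𝔪 h2, zero_add]
      have h4 : unitsDiag S' L (Additive.ofMul x.toMul) = unitsDiag S' L x := rfl
      rw [h4, hV S' L β hβ 𝔪 x, hx (β 𝔪) (Finset.mem_image_of_mem β (Finset.mem_univ 𝔪)),
        dif_pos h3]
      congr 1
      exact Subtype.ext h𝔪
    · rw [divIncl_of_not_isAbove h L _ w hw, tOrd_of_not_isAbove hβ _ w hw, add_zero,
        Finsupp.comapDomain_apply]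
      rfl

end Fermat.Agent.S55.G.SIndH601
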