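/-
S55 (Poitou–Tate), layer G, leaf G-SIND-U (helper601), part 1: the LOCAL vanishing.

A finite group `D` acting faithfully on a finite extension `E` of `ℚ_q` by field automorphisms
fixing `ℚ_q`, with trivial inertia (every `d ≠ 1` moves some integral element modulo the maximal
ideal).  Then `E / E^D` is unramified and `H¹(D, U_E) = H²(D, U_E) = 0`
(`Local.UnramUnitsH1Statement`, `Local.UnramUnitsH2Statement`, closed in `Local/H715/Closed.lean`).

* `local_unram_cocycles` : cocycle form;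
* `isZero_H2_of_forall_coboundary` : criterion for `H² = 0` in terms of cocycles;
* `isZero_local_units` : `H¹ = H² = 0` for any sub-representation of `Eˣ` with underlying set the
  integral units.
-/
import Fermat.Agent.S55.Local.H715.Closed
import Fermat.Agent.S55.Local.H608.Inertia
import Fermat.Agent.S55.G.H1JH537

set_option autoImplicit false
set_option linter.unusedSectionVars false
set_option linter.style.haveILetI false

open CategoryTheory groupCohomology

noncomputable section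

namespace Fermat.Agent.S55.G.SIndH601

open Fermat.Agent.S55 Fermat.Agent.S55.Local

section Abstract

variable {D E : Type} [Group D] [Finite D] [Field E]

/-- **Local vanishing, cocycle form.** -/
theorem local_unram_cocycles (φ : D →* (E ≃+* E)) (hφ : Function.Injective φ)
    (q : ℕ) [Fact q.Prime] (ι : ℚ_[q] →+* E)
    (hfin : letI := ι.toAlgebra; Module.Finite ℚ_[q] E)
    (hι : ∀ (d : D) (x : ℚ_[q]), φ d (ι x) = ι x)
    (hin : letI := ι.toAlgebra
      ∀ d : D, (∀ x : E, IsInt ℤ_[q] ℚ_[q] E x →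
        H608.IsNonUnitInt ℤ_[q] ℚ_[q] E (φ d x - x)) → d = 1) :
    letI := ι.toAlgebra
    (∀ c : D → Eˣ, (∀ g h, c (g * h) = Units.map ((φ g : E ≃+* E) : E →* E) (c h) * c g) →
      (∀ g, c g ∈ intUnits ℤ_[q] ℚ_[q] E) →
      ∃ m ∈ intUnits ℤ_[q] ℚ_[q] E, ∀ g, Units.map ((φ g : E ≃+* E) : E →* E) m / m = c g) ∧
    (∀ c : D × D → Eˣ,
      (∀ g h j, c (g * h, j) * c (g, h) =
        Units.map ((φ g : E ≃+* E) : E →* E) (c (h, j)) * c (g, h * j)) →
      (∀ p, c p ∈ intUnits ℤ_[q] ℚ_[q] E) →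
      ∃ x : D → Eˣ, (∀ g, x g ∈ intUnits ℤ_[q] ℚ_[q] E) ∧
        ∀ g h, Units.map ((φ g : E ≃+* E) : E →* E) (x h) / x (g * h) * x g = c (g, h)) := by
  classical
  letI : Algebra ℚ_[q] E := ι.toAlgebra
  letI : MulSemiringAction D E := MulSemiringAction.compHom E φ
  have hsmul : ∀ (d : D) (x : E), d • x = φ d x := fun _ _ => rfl
  haveI : FaithfulSMul D E := ⟨fun {d₁ d₂} h => hφ (RingEquiv.ext fun x => by
    rw [← hsmul, ← hsmul]; exact h x)⟩
  let F : Subfield E := FixedPoints.subfield D E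
  let ιF : ℚ_[q] →+* F := ι.codRestrict F (fun x d => by rw [hsmul]; exact hι d x)
  letI : Algebra ℚ_[q] F := ιF.toAlgebra
  haveI : IsScalarTower ℚ_[q] F E := IsScalarTower.of_algebraMap_eq (fun _ => rfl)
  haveI : Module.Finite ℚ_[q] E := hfin
  haveI : FiniteDimensional ℚ_[q] F := FiniteDimensional.left ℚ_[q] F E
  let ψ : D ≃* (E ≃ₐ[F] E) := FixedPoints.toAlgAutMulEquiv D E
  have hψ : ∀ (d : D) (x : E), ψ d x = φ d x := fun _ _ => rfl
  have hψu : ∀ (σ : E ≃ₐ[F] E) (u : Eˣ),
      σ • u = Units.map ((φ (ψ.symm σ) : E ≃+* E) : E →* E) u := by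
    intro σ u
    apply Units.ext
    change σ (u : E) = φ (ψ.symm σ) (u : E)
    rw [← hψ, MulEquiv.apply_symm_apply]
  have hunram : IsUnram ℤ_[q] ℚ_[q] E F := by
    rw [H608.isUnram_iff_relRamIdx, ← H608.card_inertiaSub, Subgroup.card_eq_one, eq_bot_iff]
    intro σ hσ
    rw [H608.mem_inertiaSub_iff] at hσ
    obtain ⟨d, rfl⟩ := ψ.surjective σ
    have hd : d = 1 := hin d (fun x hx => hσ x hx)
    rw [hd, map_one]
    exact Subgroup.mem_bot.2 rfl
  refine ⟨fun c hc hv => ?_, fun c hc hv => ?_⟩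
  · obtain ⟨m, hm, hmc⟩ := Closed.unramUnitsH1 ℤ_[q] ℚ_[q] F E hunram
      (fun σ => c (ψ.symm σ)) (fun σ τ => by
        change c (ψ.symm (σ * τ)) = σ • c (ψ.symm τ) * c (ψ.symm σ)
        rw [map_mul, hc, hψu]) (fun σ => hv _)
    refine ⟨m, hm, fun g => ?_⟩
    have h1 := hmc (ψ g)
    rw [hψu] at h1
    simp only [MulEquiv.symm_apply_apply] at h1
    exact h1
  · obtain ⟨x, hx, hxc⟩ := Closed.unramUnitsH2 ℤ_[q] ℚ_[q] F E hunram
      (fun p => c (ψ.symm p.1, ψ.symm p.2)) (fun σ τ υ => by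
        change c (ψ.symm (σ * τ), ψ.symm υ) * c (ψ.symm σ, ψ.symm τ) =
          σ • c (ψ.symm τ, ψ.symm υ) * c (ψ.symm σ, ψ.symm (τ * υ))
        rw [map_mul, map_mul, hc, hψu]) (fun p => hv _)
    refine ⟨fun g => x (ψ g), fun g => hx _, fun g h => ?_⟩
    have h1 := hxc (ψ g) (ψ h)
    rw [hψu] at h1
    simp only [MulEquiv.symm_apply_apply, ← map_mul] at h1
    exact h1

end Abstract

/-- `H²(G, A) = 0` as soon as every 2-cocycle is a 2-coboundary. -/
lemma isZero_H2_of_forall_coboundary {G : Type} [Group G] (A : Rep ℤ G)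
    (h : ∀ f : G × G → A,
      (∀ g h j : G, f (g * h, j) + f (g, h) = A.ρ g (f (h, j)) + f (g, h * j)) →
      ∃ y : G → A, ∀ g h : G, A.ρ g (y h) - y (g * h) + y g = f (g, h)) :
    Limits.IsZero (groupCohomology A 2) := by
  have hsub : Subsingleton (groupCohomology A 2) := by
    refine ⟨fun a b => ?_⟩
    have key : ∀ c : H2 A, c = 0 := by
      intro c
      refine H2_induction_on c fun x => (H2π_eq_zero_iff x).2 ?_
      obtain ⟨y, hy⟩ := h x ((mem_cocycles₂_iff _).1 x.2)
      refine ⟨y, ?_⟩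
      funext p
      rw [d₁₂_hom_apply]
      exact hy p.1 p.2
    rw [key a, key b]
  exact ModuleCat.isZero_of_subsingleton _

section Units

variable {D E : Type} [Group D] [Finite D] [Field E]

/-- **Local vanishing.**  `H¹(D, U) = H²(D, U) = 0` for the sub-representation `U` of `Eˣ` on the
integral units, when `D` acts faithfully on the finite extension `E` of `ℚ_q` with trivial
inertia. -/
theorem isZero_local_units (φ : D →* (E ≃+* E)) (hφ : Function.Injective φ)
    (q : ℕ) [Fact q.Prime] (ι : ℚ_[q] →+* E)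
    (hfin : letI := ι.toAlgebra; Module.Finite ℚ_[q] E)
    (hι : ∀ (d : D) (x : ℚ_[q]), φ d (ι x) = ι x)
    (hin : letI := ι.toAlgebra
      ∀ d : D, (∀ x : E, IsInt ℤ_[q] ℚ_[q] E x →
        H608.IsNonUnitInt ℤ_[q] ℚ_[q] E (φ d x - x)) → d = 1)
    (U : Submodule ℤ (Additive Eˣ))
    (hU : letI := ι.toAlgebra
      ∀ u : Additive Eˣ, u ∈ U ↔ u.toMul ∈ intUnits ℤ_[q] ℚ_[q] E)
    (hst : ∀ d : D, U ≤ U.comap (unitsRepr D φ d)) :
    Limits.IsZero (groupCohomology (Rep.of ((unitsRepr D φ).subrepresentation U hst)) 1) ∧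
    Limits.IsZero (groupCohomology (Rep.of ((unitsRepr D φ).subrepresentation U hst)) 2) := by
  letI : Algebra ℚ_[q] E := ι.toAlgebra
  obtain ⟨h1, h2⟩ := local_unram_cocycles φ hφ q ι hfin hι hin
  constructor
  · refine H1JH537.isZero_H1_of_forall_coboundary _ fun f hf => ?_
    obtain ⟨m, hm, hmc⟩ := h1 (fun g => (f g : U).1.toMul) (fun g h => by
      have := congrArg (fun u : U => (u.1.toMul : Eˣ)) (hf g h)
      exact this) (fun g => (hU _).1 (f g : U).2)
    refine ⟨(⟨Additive.ofMul m, (hU _).2 hm⟩ : U), fun g => ?_⟩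
    apply Subtype.ext
    apply Additive.toMul.injective
    exact hmc g
  · refine isZero_H2_of_forall_coboundary _ fun f hf => ?_
    obtain ⟨x, hx, hxc⟩ := h2 (fun p => (f p : U).1.toMul) (fun g h j => by
      have := congrArg (fun u : U => (u.1.toMul : Eˣ)) (hf g h j)
      exact this) (fun p => (hU _).1 (f p : U).2)
    refine ⟨fun g => (⟨Additive.ofMul (x g), (hU _).2 (hx g)⟩ : U), fun g h => ?_⟩
    apply Subtype.ext
    apply Additive.toMul.injective
    exact hxc g h

end Units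

end Fermat.Agent.S55.G.SIndH601
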