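/-
S55 (Poitou–Tate), layer G, leaf G-SIND-U (helper601), part 2: the local unit representations
`U_𝔪 = 𝒪_𝔪ˣ` of the decomposition groups and their cohomological triviality at the places where
`L / L^Γ` is unramified.

* `locUnits S L 𝔪`   : the units of the ring of integers of `L_𝔪`, a submodule of `L_𝔪ˣ`;
* `ULocRep S Γ L 𝔪`  : the same as a representation of the decomposition group `D_𝔪`;
* `isZero_ULocRep`   : `H¹(D_𝔪, U_𝔪) = H²(D_𝔪, U_𝔪) = 0` if the inertia group of `β 𝔪` is trivial.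
-/
import Fermat.Agent.S55.G.SIndH601.Spec
import Fermat.Agent.S55.G.SIndH601.LocVanish
import Fermat.Agent.S55.G.H953.H1J

set_option autoImplicit false
set_option linter.unusedSectionVars false
set_option linter.style.haveILetI false

open scoped NumberField TensorProduct
open IsDedekindDomain CategoryTheory groupCohomology

noncomputable section

namespace Fermat.Agent.S55.G.SIndH601

open Fermat.Agent.S55.G Fermat.Agent.S55 Fermat.Agent.S55.Local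

variable (S : Finset Nat.Primes) (Γ L : Type) [Group Γ] [Field L] [NumberField L]
  [MulSemiringAction Γ L]

/-! ## Integrality and the normalised valuation -/

variable {L} in
/-- `x ∈ L_𝔪` is integral over `ℤ_q` iff `|x| ≤ 1`. -/
lemma isInt_iff_locVal_le_one (𝔪 : SPlace S L) (x : LocField S 𝔪) :
    haveI : Fact (Nat.Prime ((PL0H713.primeOf S L 𝔪).1 : ℕ)) := ⟨(PL0H713.primeOf S L 𝔪).1.2⟩
    letI := PL0H713.algQq S L 𝔪
    IsInt ℤ_[((PL0H713.primeOf S L 𝔪).1 : ℕ)] ℚ_[((PL0H713.primeOf S L 𝔪).1 : ℕ)]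
      (LocField S 𝔪) x ↔ locVal S L 𝔪 x ≤ 1 :=
  (locVal_le_one_iff S L 𝔪 x).symm

variable {L} in
/-- A unit `u` of `L_𝔪` is an integral unit iff `|u| = 1`. -/
lemma mem_intUnits_iff_locVal (𝔪 : SPlace S L) (u : (LocField S 𝔪)ˣ) :
    haveI : Fact (Nat.Prime ((PL0H713.primeOf S L 𝔪).1 : ℕ)) := ⟨(PL0H713.primeOf S L 𝔪).1.2⟩
    letI := PL0H713.algQq S L 𝔪
    u ∈ intUnits ℤ_[((PL0H713.primeOf S L 𝔪).1 : ℕ)] ℚ_[((PL0H713.primeOf S L 𝔪).1 : ℕ)]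
      (LocField S 𝔪) ↔ locVal S L 𝔪 (u : LocField S 𝔪) = 1 := by
  haveI : Fact (Nat.Prime ((PL0H713.primeOf S L 𝔪).1 : ℕ)) := ⟨(PL0H713.primeOf S L 𝔪).1.2⟩
  letI := PL0H713.algQq S L 𝔪
  rw [mem_intUnits, isInt_iff_locVal_le_one, isInt_iff_locVal_le_one, Units.val_inv_eq_inv_val,
    map_inv₀]
  have h0 : 0 < locVal S L 𝔪 (u : LocField S 𝔪) :=
    zero_lt_iff.2 ((Valuation.ne_zero_iff _).2 u.ne_zero)
  rw [inv_le_one₀ h0]
  exact ⟨fun h => le_antisymm h.1 h.2, fun h => ⟨h.le, h.ge⟩⟩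

variable {L} in
/-- An element of the maximal ideal has `|y| < 1`. -/
lemma locVal_lt_one_of_isNonUnitInt (𝔪 : SPlace S L) (y : LocField S 𝔪)
    (hy : haveI : Fact (Nat.Prime ((PL0H713.primeOf S L 𝔪).1 : ℕ)) :=
        ⟨(PL0H713.primeOf S L 𝔪).1.2⟩
      letI := PL0H713.algQq S L 𝔪
      H608.IsNonUnitInt ℤ_[((PL0H713.primeOf S L 𝔪).1 : ℕ)]
        ℚ_[((PL0H713.primeOf S L 𝔪).1 : ℕ)] (LocField S 𝔪) y) :
    locVal S L 𝔪 y < 1 := by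
  haveI : Fact (Nat.Prime ((PL0H713.primeOf S L 𝔪).1 : ℕ)) := ⟨(PL0H713.primeOf S L 𝔪).1.2⟩
  letI := PL0H713.algQq S L 𝔪
  obtain ⟨h1, h2⟩ := hy
  rw [isInt_iff_locVal_le_one] at h1
  refine lt_of_le_of_ne h1 fun h => ?_
  have hy0 : y ≠ 0 := by
    rintro rfl
    rw [map_zero] at h
    exact zero_ne_one h
  exact h2 (Units.mk0 y hy0) rfl ((mem_intUnits_iff_locVal S 𝔪 _).2 h)

variable {L} in
/-- The image of an algebraic integer of `L` in `L_𝔪` is integral over `ℤ_q`. -/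
lemma isInt_toLoc (𝔪 : SPlace S L) (x : 𝓞 L) :
    haveI : Fact (Nat.Prime ((PL0H713.primeOf S L 𝔪).1 : ℕ)) := ⟨(PL0H713.primeOf S L 𝔪).1.2⟩
    letI := PL0H713.algQq S L 𝔪
    IsInt ℤ_[((PL0H713.primeOf S L 𝔪).1 : ℕ)] ℚ_[((PL0H713.primeOf S L 𝔪).1 : ℕ)]
      (LocField S 𝔪) (toLoc S 𝔪 (x : L)) := by
  haveI : Fact (Nat.Prime ((PL0H713.primeOf S L 𝔪).1 : ℕ)) := ⟨(PL0H713.primeOf S L 𝔪).1.2⟩
  letI := PL0H713.algQq S L 𝔪
  letI : Algebra ℤ_[((PL0H713.primeOf S L 𝔪).1 : ℕ)] (LocField S 𝔪) :=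
    (toL ℤ_[((PL0H713.primeOf S L 𝔪).1 : ℕ)] ℚ_[((PL0H713.primeOf S L 𝔪).1 : ℕ)]
      (LocField S 𝔪)).toAlgebra
  have hx : IsIntegral ℤ (x : L) := NumberField.RingOfIntegers.isIntegral_coe x
  exact IsIntegral.map_of_comp_eq (Int.castRingHom ℤ_[((PL0H713.primeOf S L 𝔪).1 : ℕ)])
    (toLoc S 𝔪) (Subsingleton.elim _ _) hx

/-! ## The local units -/

variable {L} in
/-- The units `U_𝔪` of the ring of integers of `L_𝔪`, as a submodule of `L_𝔪ˣ`. -/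
def locUnits (𝔪 : SPlace S L) : Submodule ℤ (Additive (LocField S 𝔪)ˣ) :=
  AddSubgroup.toIntSubmodule
    { carrier := {u | locVal S L 𝔪 ((u.toMul : (LocField S 𝔪)ˣ) : LocField S 𝔪) = 1}
      add_mem' := fun {a b} ha hb => by
        change locVal S L 𝔪 (((a.toMul * b.toMul : (LocField S 𝔪)ˣ)) : LocField S 𝔪) = 1
        have ha' : locVal S L 𝔪 ((a.toMul : (LocField S 𝔪)ˣ) : LocField S 𝔪) = 1 := ha
        have hb' : locVal S L 𝔪 ((b.toMul : (LocField S 𝔪)ˣ) : LocField S 𝔪) = 1 := hb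
        rw [Units.val_mul, map_mul, ha', hb', mul_one]
      zero_mem' := by
        change locVal S L 𝔪 (((1 : (LocField S 𝔪)ˣ)) : LocField S 𝔪) = 1
        rw [Units.val_one, map_one]
      neg_mem' := fun {a} ha => by
        change locVal S L 𝔪 ((((a.toMul)⁻¹ : (LocField S 𝔪)ˣ)) : LocField S 𝔪) = 1
        have ha' : locVal S L 𝔪 ((a.toMul : (LocField S 𝔪)ˣ) : LocField S 𝔪) = 1 := ha
        rw [Units.val_inv_eq_inv_val, map_inv₀, ha', inv_one] }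

variable {L} in
lemma mem_locUnits_iff (𝔪 : SPlace S L) (u : Additive (LocField S 𝔪)ˣ) :
    u ∈ locUnits S 𝔪 ↔
      locVal S L 𝔪 ((u.toMul : (LocField S 𝔪)ˣ) : LocField S 𝔪) = 1 := Iff.rfl

variable {L} in
/-- The decomposition group fixes the image of `ℚ_q` in `L_𝔪`. -/
lemma locAut_ofQq' (𝔪 : SPlace S L) (d : decomp S Γ 𝔪) (x : Qq (PL0H713.primeOf S L 𝔪).1) :
    locAut S Γ 𝔪 d (PL0H713.ofQq S L 𝔪 x) = PL0H713.ofQq S L 𝔪 x := by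
  rw [PL0H713.ofQq_apply]
  change locAut S Γ 𝔪 d (LocField.mk S 𝔪 (asIncl S L _)) = LocField.mk S 𝔪 (asIncl S L _)
  rw [locAut_mk, asAut_asIncl]

variable {L} in
/-- The decomposition group preserves integrality. -/
lemma isInt_locAut (𝔪 : SPlace S L) (d : decomp S Γ 𝔪) (x : LocField S 𝔪)
    (hx : haveI : Fact (Nat.Prime ((PL0H713.primeOf S L 𝔪).1 : ℕ)) :=
        ⟨(PL0H713.primeOf S L 𝔪).1.2⟩
      letI := PL0H713.algQq S L 𝔪
      IsInt ℤ_[((PL0H713.primeOf S L 𝔪).1 : ℕ)] ℚ_[((PL0H713.primeOf S L 𝔪).1 : ℕ)]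
        (LocField S 𝔪) x) :
    haveI : Fact (Nat.Prime ((PL0H713.primeOf S L 𝔪).1 : ℕ)) := ⟨(PL0H713.primeOf S L 𝔪).1.2⟩
    letI := PL0H713.algQq S L 𝔪
    IsInt ℤ_[((PL0H713.primeOf S L 𝔪).1 : ℕ)] ℚ_[((PL0H713.primeOf S L 𝔪).1 : ℕ)]
      (LocField S 𝔪) (locAut S Γ 𝔪 d x) := by
  haveI : Fact (Nat.Prime ((PL0H713.primeOf S L 𝔪).1 : ℕ)) := ⟨(PL0H713.primeOf S L 𝔪).1.2⟩
  letI := PL0H713.algQq S L 𝔪
  obtain ⟨p, hp, hpx⟩ := hx
  refine ⟨p, hp, ?_⟩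
  have h1 := congrArg ((locAut S Γ 𝔪 d : LocField S 𝔪 ≃+* LocField S 𝔪) :
    LocField S 𝔪 →+* LocField S 𝔪) hpx
  rw [Polynomial.hom_eval₂, map_zero] at h1
  have h2 : ((locAut S Γ 𝔪 d : LocField S 𝔪 ≃+* LocField S 𝔪) :
      LocField S 𝔪 →+* LocField S 𝔪).comp
      (toL ℤ_[((PL0H713.primeOf S L 𝔪).1 : ℕ)] ℚ_[((PL0H713.primeOf S L 𝔪).1 : ℕ)]
        (LocField S 𝔪)) =
      toL ℤ_[((PL0H713.primeOf S L 𝔪).1 : ℕ)] ℚ_[((PL0H713.primeOf S L 𝔪).1 : ℕ)]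
        (LocField S 𝔪) :=
    RingHom.ext fun a => locAut_ofQq' S Γ 𝔪 d _
  rw [h2] at h1
  exact h1

variable {L} in
/-- The decomposition group preserves the normalised valuation. -/
lemma locVal_locAut (𝔪 : SPlace S L) (d : decomp S Γ 𝔪) (u : (LocField S 𝔪)ˣ)
    (hu : locVal S L 𝔪 (u : LocField S 𝔪) = 1) :
    locVal S L 𝔪 (locAut S Γ 𝔪 d (u : LocField S 𝔪)) = 1 := by
  haveI : Fact (Nat.Prime ((PL0H713.primeOf S L 𝔪).1 : ℕ)) := ⟨(PL0H713.primeOf S L 𝔪).1.2⟩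
  letI := PL0H713.algQq S L 𝔪
  have h1 := (mem_intUnits_iff_locVal S 𝔪 u).2 hu
  have h2 : Units.map ((locAut S Γ 𝔪 d : LocField S 𝔪 ≃+* LocField S 𝔪) :
      LocField S 𝔪 →* LocField S 𝔪) u ∈
      intUnits ℤ_[((PL0H713.primeOf S L 𝔪).1 : ℕ)] ℚ_[((PL0H713.primeOf S L 𝔪).1 : ℕ)]
        (LocField S 𝔪) := by
    refine ⟨isInt_locAut S Γ 𝔪 d _ h1.1, ?_⟩
    rw [← map_inv]
    exact isInt_locAut S Γ 𝔪 d _ h1.2
  exact (mem_intUnits_iff_locVal S 𝔪 _).1 h2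

variable {L} in
lemma locUnits_stable (𝔪 : SPlace S L) (d : decomp S Γ 𝔪) :
    locUnits S 𝔪 ≤ (locUnits S 𝔪).comap (unitsRepr (decomp S Γ 𝔪) (locAut S Γ 𝔪) d) := by
  intro u hu
  exact locVal_locAut S Γ 𝔪 d u.toMul hu

variable {L} in
/-- `U_𝔪` as a representation of the decomposition group. -/
def ULocRep (𝔪 : SPlace S L) : Rep ℤ (decomp S Γ 𝔪) :=
  Rep.of ((unitsRepr (decomp S Γ 𝔪) (locAut S Γ 𝔪)).subrepresentation (locUnits S 𝔪)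
    (locUnits_stable S Γ 𝔪))

/-! ## Local vanishing -/

variable {S' : Finset Nat.Primes} {β : SPlace S' L → HeightOneSpectrum (𝓞 L)}

variable {L} in
/-- **Local vanishing at an unramified place.** -/
theorem isZero_ULocRep [Finite Γ] [FaithfulSMul Γ L] (hβ : IsDict S' L β)
    (hur : IsUnramOut S Γ L) (𝔪 : SPlace S' L) (h𝔪 : ¬ IsAbove S L (β 𝔪)) :
    Limits.IsZero (groupCohomology (ULocRep S' Γ 𝔪) 1) ∧
      Limits.IsZero (groupCohomology (ULocRep S' Γ 𝔪) 2) := by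
  haveI : Fact (Nat.Prime ((PL0H713.primeOf S' L 𝔪).1 : ℕ)) := ⟨(PL0H713.primeOf S' L 𝔪).1.2⟩
  refine isZero_local_units (locAut S' Γ 𝔪) (H953.locAut_injective S' Γ 𝔪)
    ((PL0H713.primeOf S' L 𝔪).1 : ℕ) (PL0H713.ofQq S' L 𝔪) (PL0H713.finite_locField S' L 𝔪)
    (locAut_ofQq' S' Γ 𝔪) ?_ (locUnits S' 𝔪) ?_ (locUnits_stable S' Γ 𝔪)
  · -- trivial inertia
    intro d hd
    have h1 : ∀ x : L, (d : Γ) • x = x := by
      refine hur (β 𝔪) h𝔪 (d : Γ) fun x => ?_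
      rw [hβ.integral 𝔪 ((d : Γ) • x - x), ← locVal_lt_one_iff]
      have h2 : toLoc S' 𝔪 ((((d : Γ) • x - x : 𝓞 L)) : L) =
          locAut S' Γ 𝔪 d (toLoc S' 𝔪 (x : L)) - toLoc S' 𝔪 (x : L) := by
        rw [locAut_toLoc, ← map_sub]
        congr 1
      rw [h2]
      exact locVal_lt_one_of_isNonUnitInt S' 𝔪 _ (hd _ (isInt_toLoc S' 𝔪 x))
    apply Subtype.ext
    exact FaithfulSMul.eq_of_smul_eq_smul (α := L) fun x => by
      rw [h1 x, Subgroup.coe_one, one_smul]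
  · intro u
    rw [mem_locUnits_iff]
    exact (mem_intUnits_iff_locVal S' 𝔪 u.toMul).symm

end Fermat.Agent.S55.G.SIndH601
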