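/-
S55 (Poitou–Tate), layer G, leaf G-SIND-U (helper601), part 3: semi-local Shapiro for
`U = unitsT` and the proof of `UnitsVanishSpec`.

* `UTRepOf`, `uToLoc`   : `U` as a representation and the localisation morphisms
                          `Res_{D_𝔪} U ⟶ U_𝔪` (`𝔪` not above `S`);
* `uRecognition`        : `U ≅ ∏_{orbits not above S} Coind_{D_r}^Γ U_r` (recognition form);
* `isZero_UTRepOf`      : `H¹(Γ, U) = H²(Γ, U) = 0`;
* `unitsVanish_of : OrdEquivSpec → AboveSpec → UnitsVanishSpec`.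
-/
import Fermat.Agent.S55.G.SIndH601.Surj
import Fermat.Agent.S55.G.SIndH601.ULocal
import Fermat.Agent.S55.G.LocH897.ShapiroJ
import Fermat.Agent.S55.G.FI.TransportH895
import Fermat.Agent.S55.T.ShapiroH303
import Fermat.Agent.S55.T.SumH635
import Fermat.Agent.S55.H295.TwinVanishing

set_option autoImplicit false
set_option linter.unusedSectionVars false
set_option linter.style.haveILetI false

open scoped NumberField TensorProduct
open IsDedekindDomain CategoryTheory groupCohomology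

noncomputable section

namespace Fermat.Agent.S55.G.SIndH601

open Fermat.Agent.S55.G Fermat.Agent.S55

variable {S S' : Finset Nat.Primes} (h : S ⊆ S') (Γ L : Type) [Group Γ] [Field L]
  [NumberField L] [MulSemiringAction Γ L] {β : SPlace S' L → HeightOneSpectrum (𝓞 L)}

/-! ## Components at the places above `S` -/

variable {L} in
/-- An idèle with trivial `S`-part has component `1` at the places above `S`. -/
lemma mk_eq_one_of_asRes (a : AS S' L) (ha : asRes h L a = 1) (𝔪 : SPlace S' L)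
    (h𝔪 : (PL0H713.primeOf S' L 𝔪).1 ∈ S) : LocField.mk S' 𝔪 a = 1 := by
  have h1 : a * eS L S S' = eS L S S' := by
    rw [mul_eS h L a, ha, ← eS_eq_sec_one h L]
  have h2 := congrArg (LocField.mk S' 𝔪) h1
  rw [map_mul, mk_eS_of_mem 𝔪 h𝔪, mul_one] at h2
  exact h2

variable {L} in
/-- An element with component `1` at all places above `S` has trivial `S`-part. -/
lemma asRes_eq_one_of_mk (a : AS S' L)
    (ha : ∀ 𝔪 : SPlace S' L, (PL0H713.primeOf S' L 𝔪).1 ∈ S → LocField.mk S' 𝔪 a = 1) :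
    asRes h L a = 1 := by
  haveI := LocH897.isReduced_AS S' L
  haveI := LocH897.isArtinianRing_AS S' L
  have h1 : a * eS L S S' - eS L S S' = 0 := by
    refine LocH897.eq_zero_of_forall_mem_maximal _ fun 𝔫 h𝔫 => ?_
    have h2 : LocField.mk S' (⟨𝔫, h𝔫⟩ : SPlace S' L) (a * eS L S S' - eS L S S') = 0 := by
      rw [map_sub, map_mul]
      by_cases hq : (PL0H713.primeOf S' L (⟨𝔫, h𝔫⟩ : SPlace S' L)).1 ∈ S
      · rw [ha _ hq, one_mul, sub_self]
      · rw [mk_eS_of_notMem _ hq, mul_zero, sub_self]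
    exact (LocField.mk_eq_zero_iff S' (⟨𝔫, h𝔫⟩ : SPlace S' L) _).1 h2
  have h3 : asRes h L (a * eS L S S') = asRes h L (eS L S S') := by
    rw [sub_eq_zero.1 h1]
  rw [map_mul, asRes_eS h L, mul_one] at h3
  exact h3

variable {L} in
/-- `x ≡ 1` at `g r` iff `g⁻¹ x ≡ 1` at `r`. -/
lemma mk_sPlaceSMul_eq_one_iff (g : Γ) (r : SPlace S' L) (x : AS S' L) :
    LocField.mk S' (sPlaceSMul S' Γ g r) x = 1 ↔ LocField.mk S' r (asAut S' Γ L g⁻¹ x) = 1 := by
  rw [← sub_eq_zero, ← map_one (LocField.mk S' (sPlaceSMul S' Γ g r)), ← map_sub,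
    LocField.mk_eq_zero_iff, mem_sPlaceSMul_iff, ← LocField.mk_eq_zero_iff, map_sub, map_one,
    map_sub, map_one, sub_eq_zero]

/-! ## `U` and the localisation morphisms -/

/-- `U = unitsT` as an object of `Rep ℤ Γ`. -/
def UTRepOf (hstab : ∀ g : Γ, unitsT h L β ≤ (unitsT h L β).comap (jRepr Γ S' L g)) :
    Rep ℤ Γ :=
  Rep.of ((jRepr Γ S' L).subrepresentation (unitsT h L β) hstab)

variable {L} in
/-- The localisation `U → U_𝔪` at a place `𝔪` not above `S`. -/
def uToLocLin (𝔪 : SPlace S' L) (h𝔪 : ¬ IsAbove S L (β 𝔪)) :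
    unitsT h L β →ₗ[ℤ] locUnits S' 𝔪 :=
  LinearMap.codRestrict (locUnits S' 𝔪)
    ((jToLoc S' 𝔪).toIntLinearMap.comp (unitsT h L β).subtype)
    (fun u => (placeOrd_eq_zero_iff S' L 𝔪 u.1).1 (u.2.2 𝔪 h𝔪))

variable {L} in
lemma coe_uToLocLin (𝔪 : SPlace S' L) (h𝔪 : ¬ IsAbove S L (β 𝔪)) (u : unitsT h L β) :
    ((((uToLocLin h 𝔪 h𝔪 u : locUnits S' 𝔪) : Additive (LocField S' 𝔪)ˣ).toMul :
      (LocField S' 𝔪)ˣ) : LocField S' 𝔪) =
      LocField.mk S' 𝔪 (((u : Additive (AS S' L)ˣ).toMul : (AS S' L)ˣ) : AS S' L) := rfl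

variable {L} in
/-- The localisation morphism `Res_{D_𝔪} U ⟶ U_𝔪`. -/
def uToLoc (hstab : ∀ g : Γ, unitsT h L β ≤ (unitsT h L β).comap (jRepr Γ S' L g))
    (𝔪 : SPlace S' L) (h𝔪 : ¬ IsAbove S L (β 𝔪)) :
    Rep.res (decomp S' Γ 𝔪).subtype (UTRepOf h Γ L hstab) ⟶ ULocRep S' Γ 𝔪 :=
  Rep.ofHom ⟨uToLocLin h 𝔪 h𝔪, fun d => LinearMap.ext fun u =>
    Subtype.ext (jToLoc_equivariant S' Γ 𝔪 d (u : unitsT h L β).1)⟩

variable {L} in
lemma uToLoc_hom_apply (hstab : ∀ g : Γ, unitsT h L β ≤ (unitsT h L β).comap (jRepr Γ S' L g))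
    (𝔪 : SPlace S' L) (h𝔪 : ¬ IsAbove S L (β 𝔪)) (u : unitsT h L β) :
    (uToLoc h Γ hstab 𝔪 h𝔪).hom u = uToLocLin h 𝔪 h𝔪 u := rfl

/-! ## The recognition principle -/

variable {L} in
/-- **Semi-local decomposition of `U`.**  `U ≅ ∏_r Coind_{D_r}^Γ U_r`, `r` running over
representatives of the `Γ`-orbits of places not above `S`. -/
theorem uRecognition (hE : OrdEquivSpec) (hD : AboveSpec) (hβ : IsDict S' L β)
    (hstab : ∀ g : Γ, unitsT h L β ≤ (unitsT h L β).comap (jRepr Γ S' L g))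
    (R : Finset (SPlace S' L))
    (hR : ∀ 𝔪 : SPlace S' L, ∃! r : SPlace S' L, r ∈ R ∧ ∃ g : Γ, sPlaceSMul S' Γ g r = 𝔪)
    (f : ∀ r : {r : SPlace S' L // r ∈ R ∧ ¬ IsAbove S L (β r)}, Γ → locUnits S' r.1)
    (hf : ∀ (r : {r : SPlace S' L // r ∈ R ∧ ¬ IsAbove S L (β r)}) (s : decomp S' Γ r.1)
      (g : Γ), f r (s * g) =
        ((unitsRepr (decomp S' Γ r.1) (locAut S' Γ r.1)).subrepresentation (locUnits S' r.1)
          (locUnits_stable S' Γ r.1)) s (f r g)) :
    ∃! b : unitsT h L β,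
      ∀ (r : {r : SPlace S' L // r ∈ R ∧ ¬ IsAbove S L (β r)}) (g : Γ),
        uToLocLin h r.1 r.2.2
          (((jRepr Γ S' L).subrepresentation (unitsT h L β) hstab) g b) = f r g := by
  classical
  haveI := LocH897.isReduced_AS S' L
  haveI := LocH897.isArtinianRing_AS S' L
  have hcover : ∀ 𝔫 : Ideal (AS S' L), 𝔫.IsMaximal →
      ∃ (i : R) (g : Γ), ∀ x, x ∈ 𝔫 ↔ asRingAut Γ S' L g x ∈ i.1.asIdeal := by
    intro 𝔫 h𝔫
    obtain ⟨r, ⟨hrR, g, hg⟩, -⟩ := hR ⟨𝔫, h𝔫⟩
    refine ⟨⟨r, hrR⟩, g⁻¹, fun x => ?_⟩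
    have := LocH897.mem_sPlaceSMul_iff' S' Γ L g r x
    rw [hg] at this
    exact this
  have hdisj : ∀ (i j : R) (g : Γ),
      (∀ x, x ∈ j.1.asIdeal ↔ asRingAut Γ S' L g x ∈ i.1.asIdeal) → i = j := by
    intro i j g hh
    obtain ⟨r, -, hru⟩ := hR j.1
    have hj : j.1 = r := hru j.1 ⟨j.2, 1, by
      refine MaximalSpectrum.ext (Ideal.ext fun x => ?_)
      rw [LocH897.mem_sPlaceSMul_iff', inv_one, map_one, RingAut.one_apply]⟩
    have hi : i.1 = r := hru i.1 ⟨i.2, g⁻¹, by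
      refine MaximalSpectrum.ext (Ideal.ext fun x => ?_)
      rw [LocH897.mem_sPlaceSMul_iff', inv_inv, hh]⟩
    exact Subtype.ext (hi.trans hj.symm)
  -- the family of prescribed components
  let F : ∀ r : R, Γ → (AS S' L ⧸ r.1.asIdeal)ˣ := fun r g =>
    if hr : IsAbove S L (β r.1) then 1
    else Additive.toMul (α := (AS S' L ⧸ r.1.asIdeal)ˣ)
      ((f ⟨r.1, r.2, hr⟩ g : locUnits S' r.1) : Additive (LocField S' r.1)ˣ)
  have hF : ∀ (r : R) (s : LocH897.decomp (asRingAut Γ S' L) r.1.asIdeal) (g : Γ),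
      ((F r (s * g) : (AS S' L ⧸ r.1.asIdeal)ˣ) : AS S' L ⧸ r.1.asIdeal) =
        LocH897.resAut (asRingAut Γ S' L) r.1.asIdeal s (F r g) := by
    intro r s g
    by_cases hr : IsAbove S L (β r.1)
    · simp only [F, dif_pos hr, Units.val_one, map_one]
    · simp only [F, dif_neg hr]
      have hs : (s : Γ) ∈ G.decomp S' Γ r.1 := by rw [LocH897.Gdecomp_eq]; exact s.2
      have := congrArg (fun y : locUnits S' r.1 =>
        (((y : Additive (LocField S' r.1)ˣ).toMul : (LocField S' r.1)ˣ) : LocField S' r.1))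
        (hf ⟨r.1, r.2, hr⟩ ⟨s, hs⟩ g)
      exact this
  obtain ⟨b, hb, hbu⟩ := LocH897.existsUnique_units (asRingAut Γ S' L)
    (fun r : R => r.1.asIdeal) (fun r => r.1.isMaximal) hcover hdisj F hF
  -- `b ∈ U`
  have hbmem : (Additive.ofMul b : Additive (AS S' L)ˣ) ∈ unitsT h L β := by
    refine ⟨?_, fun 𝔪 h𝔪 => ?_⟩
    · apply Additive.toMul.injective
      apply Units.ext
      change asRes h L (b : AS S' L) = 1
      refine asRes_eq_one_of_mk h _ fun 𝔪 h𝔪 => ?_
      obtain ⟨r, ⟨hrR, g, rfl⟩, -⟩ := hR 𝔪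
      rw [mk_sPlaceSMul_eq_one_iff]
      have hr : IsAbove S L (β r) := by
        have h1 := (hD S S' h L β hβ _).2 h𝔪
        rw [hβ.equiv Γ g r, isAbove_primeSMul_iff] at h1
        exact h1
      have h2 := hb ⟨r, hrR⟩ g⁻¹
      simp only [F, dif_pos hr, Units.val_one] at h2
      exact h2
    · obtain ⟨r, ⟨hrR, g, rfl⟩, -⟩ := hR 𝔪
      have hr : ¬ IsAbove S L (β r) := by
        rw [hβ.equiv Γ g r, isAbove_primeSMul_iff] at h𝔪
        exact h𝔪
      have e1 : (Additive.ofMul b : Additive (AS S' L)ˣ) =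
          jRepr Γ S' L g (jRepr Γ S' L g⁻¹ (Additive.ofMul b)) := by
        rw [← Module.End.mul_apply, ← map_mul, mul_inv_cancel, map_one]
        rfl
      rw [e1, hE S' Γ L g r, placeOrd_eq_zero_iff]
      have h2 := hb ⟨r, hrR⟩ g⁻¹
      simp only [F, dif_neg hr] at h2
      have h3 : locVal S' L r ((((f ⟨r, hrR, hr⟩ g⁻¹ : locUnits S' r) :
          Additive (LocField S' r)ˣ).toMul : (LocField S' r)ˣ) : LocField S' r) = 1 :=
        (f ⟨r, hrR, hr⟩ g⁻¹ : locUnits S' r).2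
      rw [← h3]
      exact congrArg (locVal S' L r) h2
  refine ⟨(⟨Additive.ofMul b, hbmem⟩ : unitsT h L β), fun r g => ?_, fun c hc => ?_⟩
  · apply Subtype.ext
    apply Additive.toMul.injective
    apply Units.ext
    have h2 := hb ⟨r.1, r.2.1⟩ g
    simp only [F, dif_neg r.2.2] at h2
    exact h2
  · apply Subtype.ext
    apply Additive.toMul.injective
    refine hbu ((c : unitsT h L β).1.toMul) fun r g => ?_
    by_cases hr : IsAbove S L (β r.1)
    · simp only [F, dif_pos hr, Units.val_one]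
      have hmem := hstab g (c : unitsT h L β).2
      have h1 : asRes h L (asAut S' Γ L g
          ((((c : unitsT h L β) : Additive (AS S' L)ˣ).toMul : (AS S' L)ˣ) : AS S' L)) = 1 := by
        have := congrArg (fun y : Additive (AS S L)ˣ => ((y.toMul : (AS S L)ˣ) : AS S L))
          hmem.1
        exact this
      exact mk_eq_one_of_asRes h _ h1 r.1 ((hD S S' h L β hβ r.1).1 hr)
    · simp only [F, dif_neg hr]
      have := congrArg (fun y : locUnits S' r.1 =>
        (((y : Additive (LocField S' r.1)ˣ).toMul : (LocField S' r.1)ˣ) : LocField S' r.1))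
        (hc ⟨r.1, r.2, hr⟩ g)
      exact this

/-! ## Vanishing of `H¹` and `H²` for the full group -/

/-- `H¹(Γ, U) = H²(Γ, U) = 0`. -/
theorem isZero_UTRepOf [Finite Γ] [FaithfulSMul Γ L] (hE : OrdEquivSpec) (hD : AboveSpec)
    (hβ : IsDict S' L β) (hur : IsUnramOut S Γ L)
    (hstab : ∀ g : Γ, unitsT h L β ≤ (unitsT h L β).comap (jRepr Γ S' L g)) (n : ℕ)
    (hn : n = 1 ∨ n = 2) :
    Limits.IsZero (groupCohomology (UTRepOf h Γ L hstab) n) := by
  haveI : Finite (SPlace S' L) := PL0H713.finite_sPlace S' L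
  obtain ⟨R, hR⟩ := H953.exists_orbitReps S' Γ L
  have hbij := LocH897.semilocal_bijective T.ShapiroH303.shapiroExplicit T.H635.finiteProd
    (k := ℤ) (G := Γ) {r : SPlace S' L // r ∈ R ∧ ¬ IsAbove S L (β r)}
    (fun r => decomp S' Γ r.1) (fun r => ULocRep S' Γ r.1) (UTRepOf h Γ L hstab)
    (fun r => uToLoc h Γ hstab r.1 r.2.2)
    (fun f hf => uRecognition h Γ hE hD hβ hstab R hR f hf) n
  have hloc : ∀ r : {r : SPlace S' L // r ∈ R ∧ ¬ IsAbove S L (β r)},
      Subsingleton (groupCohomology (ULocRep S' Γ r.1) n) := by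
    intro r
    obtain ⟨h1, h2⟩ := isZero_ULocRep S Γ hβ hur r.1 r.2.2
    rcases hn with rfl | rfl
    · exact ModuleCat.isZero_iff_subsingleton.1 h1
    · exact ModuleCat.isZero_iff_subsingleton.1 h2
  haveI : Subsingleton (groupCohomology (UTRepOf h Γ L hstab) n) :=
    ⟨fun x y => hbij.1 (funext fun r => (hloc r).elim _ _)⟩
  exact ModuleCat.isZero_of_subsingleton _

/-! ## The theorem -/

/-- **G-SIND-U.**  `UnitsVanishSpec` from the Galois invariance of the order maps (`OrdEquivSpec`)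
and the residue characteristic dictionary (`AboveSpec`). -/
theorem unitsVanish_of (hE : OrdEquivSpec) (hD : AboveSpec) : UnitsVanishSpec := by
  intro S S' h G L _ _ _ _ _ _ β hβ hS hur hstab H n hn
  obtain ⟨m, rfl⟩ : ∃ m, n = m + 1 := ⟨n - 1, by omega⟩
  refine H295.isZero_groupCohomology_of_twin
    (Rep.of ((jRepr G S' L).subrepresentation (unitsT h L β) hstab)) (fun K => ?_) H m
  -- the subgroup `K` acting on `L`
  haveI : FaithfulSMul K L := ⟨fun {k₁ k₂} hk =>
    Subtype.ext (FaithfulSMul.eq_of_smul_eq_smul (α := L) fun x => hk x)⟩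
  have hcongr : ∀ k : K, jRepr K S' L k = jRepr G S' L (k : G) := fun k =>
    FIH895.jRepr_congr S' (fun _ => rfl)
  have hstabK : ∀ k : K, unitsT h L β ≤ (unitsT h L β).comap (jRepr K S' L k) := by
    intro k
    rw [hcongr k]
    exact hstab (k : G)
  have hurK : IsUnramOut S K L := fun w hw k hk x => hur w hw (k : G) (fun y => hk y) x
  have e : Rep.res K.subtype (Rep.of ((jRepr G S' L).subrepresentation (unitsT h L β) hstab)) =
      UTRepOf h K L hstabK := by
    refine congrArg (Rep.of (X := unitsT h L β)) ?_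
    refine MonoidHom.ext fun k => LinearMap.ext fun u => Subtype.ext ?_
    change jRepr G S' L (k : G) (u : unitsT h L β).1 = jRepr K S' L k (u : unitsT h L β).1
    rw [hcongr k]
  rw [e]
  exact ⟨isZero_UTRepOf h K L hE hD hβ hurK hstabK 1 (Or.inl rfl),
    isZero_UTRepOf h K L hE hD hβ hurK hstabK 2 (Or.inr rfl)⟩

end Fermat.Agent.S55.G.SIndH601
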