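/-
S55 (Poitou–Tate), layer G, leaf G-SIND (helper601): STATUS FILE.

`sIndep_of_VE : OrdDiagSpec → OrdEquivSpec → SIndepSpec`

* G-PL1 `PlacePrimeSpec`   : `PL1H597.placePrimeSpec` (helper597);
* G-SIND-D `AboveSpec`     : `H99.above` (helper99);
* G-SIND-X `ExistsOrdSpec` : `H99.existsOrd` (helper99);
* G-SIND-U `UnitsVanishSpec` : `unitsVanish_of` (helper601, `USemi.lean`), from E and D.

Remaining inputs: G-SIND-V `OrdDiagSpec` and G-SIND-E `OrdEquivSpec`.
-/
import Fermat.Agent.S55.G.SIndH601.Assembly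
import Fermat.Agent.S55.G.SIndH601.USemi
import Fermat.Agent.S55.G.SIndH601.DXH99
import Fermat.Agent.S55.G.PL1H597.Main

set_option autoImplicit false

namespace Fermat.Agent.S55.G.SIndH601

open Fermat.Agent.S55.G

/-- **G-SIND** from the two valuation-comparison sub-leaves V and E. -/
theorem sIndep_of_VE (hV : OrdDiagSpec) (hE : OrdEquivSpec) : SIndepSpec :=
  sIndep_of PL1H597.placePrimeSpec hV hE H99.above H99.existsOrd (unitsVanish_of hE H99.above)

end Fermat.Agent.S55.G.SIndH601
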