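/-
S55 (Poitou–Tate), layer G, leaf G-SIND (`SIndepSpec`), places route (helper601) — CLOSED.

    sIndep : SIndepSpec        (unconditional)

`sIndep_of_VE` (`Final.lean`) applied to `H241.ordDiag : OrdDiagSpec` and
`H241.ordEquiv : OrdEquivSpec` (helper241).  Second, independent proof of G-SIND
(the first one is `SIndH237.sIndep`, place-free route of helper237).
-/
import Fermat.Agent.S55.G.SIndH601.Final
import Fermat.Agent.S55.G.SIndH601.H241.OrdDiag
import Fermat.Agent.S55.G.SIndH601.H241.OrdEquiv

set_option autoImplicit false

namespace Fermat.Agent.S55.G.SIndH601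

open Fermat.Agent.S55.G

/-- **G-SIND-U**, unconditional. -/
theorem unitsVanish : UnitsVanishSpec := unitsVanish_of H241.ordEquiv H99.above

/-- **G-SIND** (independence of `S`), unconditional. -/
theorem sIndep : SIndepSpec := sIndep_of_VE H241.ordDiag H241.ordEquiv

end Fermat.Agent.S55.G.SIndH601
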