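/-
S55 (Poitou–Tate), layer G, leaf G-SIND (helper601), part 5: ASSEMBLY.

`sIndep_of : PlacePrimeSpec → OrdDiagSpec → OrdEquivSpec → AboveSpec → ExistsOrdSpec →
  UnitsVanishSpec → SIndepSpec`.

The morphism `π : C_{S'}(L) ⟶ C_S(L)` induced by `Φ`, the short exact sequence
`0 → U → C_{S'}(L) → C_S(L) → 0` (`U = unitsT = ker Φ`) and the long exact cohomology sequence.
-/
import Fermat.Agent.S55.G.SIndH601.Surj
import Fermat.Agent.S55.G.SesH604
import Fermat.Agent.S55.H295.Basic

set_option autoImplicit false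
set_option linter.unusedSectionVars false
set_option linter.style.haveILetI false

open scoped NumberField TensorProduct
open IsDedekindDomain CategoryTheory groupCohomology

noncomputable section

namespace Fermat.Agent.S55.G.SIndH601

open Fermat.Agent.S55.G Fermat.Agent.S55

variable {S S' : Finset Nat.Primes} (h : S ⊆ S') (G L : Type) [Group G] [Field L] [NumberField L]
  [MulSemiringAction G L] {β : SPlace S' L → HeightOneSpectrum (𝓞 L)}

/-! ## The morphism `π` -/

lemma principal_le_comap_Phi (hV : OrdDiagSpec) (hβ : IsDict S' L β) :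
    principal S' L ≤ (principal S L).comap (Phi h L β).toIntLinearMap := by
  rintro _ ⟨x, rfl⟩
  exact ⟨x, (Phi_diagHom h hV hβ x).symm⟩

/-- The additive map `C_{S'}(L) → C_S(L)` induced by `Φ`. -/
def piLin (hV : OrdDiagSpec) (hβ : IsDict S' L β) : CS S' L →ₗ[ℤ] CS S L :=
  Submodule.mapQ (principal S' L) (principal S L) (Phi h L β).toIntLinearMap
    (principal_le_comap_Phi h L hV hβ)

lemma piLin_mk (hV : OrdDiagSpec) (hβ : IsDict S' L β) (y : JD S' L) :
    piLin h L hV hβ ((principal S' L).mkQ y) = (principal S L).mkQ (Phi h L β y) := rfl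

/-- The morphism `π : C_{S'}(L) ⟶ C_S(L)` in `Rep ℤ G`. -/
def piHom (hV : OrdDiagSpec) (hE : OrdEquivSpec) (hβ : IsDict S' L β) :
    CRep S' G L ⟶ CRep S G L :=
  Rep.ofHom ⟨piLin h L hV hβ, fun g => LinearMap.ext fun c => by
    obtain ⟨y, rfl⟩ := Submodule.mkQ_surjective _ c
    change piLin h L hV hβ ((principal S' L).mkQ (jdRepr S' G L g y)) =
      (principal S L).mkQ (jdRepr S G L g (Phi h L β y))
    rw [piLin_mk, Phi_equivariant h G hE hβ]⟩

lemma piHom_mk (hV : OrdDiagSpec) (hE : OrdEquivSpec) (hβ : IsDict S' L β) (y : JD S' L) :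
    (piHom h G L hV hE hβ).hom ((principal S' L).mkQ y) = (principal S L).mkQ (Phi h L β y) :=
  rfl

/-! ## The kernel `U` as a representation -/

/-- `U = unitsT` as an object of `Rep ℤ G`. -/
def UTRep (hE : OrdEquivSpec) (hβ : IsDict S' L β) : Rep ℤ G :=
  Rep.of ((jRepr G S' L).subrepresentation (unitsT h L β) (unitsT_stable h G hE hβ))

/-- The morphism `U ⟶ C_{S'}(L)`, `u ↦ [(u, 0)]`. -/
def uIncl (hE : OrdEquivSpec) (hβ : IsDict S' L β) : UTRep h G L hE hβ ⟶ CRep S' G L :=
  Rep.ofHom ⟨(unitsT h L β).subtype, fun _ => LinearMap.ext fun _ => rfl⟩ ≫ jToCRepHom S' G L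

lemma uIncl_apply (hE : OrdEquivSpec) (hβ : IsDict S' L β) (u : unitsT h L β) :
    (uIncl h G L hE hβ).hom u = (principal S' L).mkQ ((u : Additive (AS S' L)ˣ), 0) := rfl

/-- The short complex `U ⟶ C_{S'}(L) ⟶ C_S(L)`, restricted to a subgroup `H`. -/
def sc (hV : OrdDiagSpec) (hE : OrdEquivSpec) (hβ : IsDict S' L β) (H : Subgroup G) :
    ShortComplex (Rep ℤ H) :=
  ShortComplex.mk ((Rep.resFunctor H.subtype).map (uIncl h G L hE hβ))
    ((Rep.resFunctor H.subtype).map (piHom h G L hV hE hβ)) (by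
      rw [← Functor.map_comp]
      have : uIncl h G L hE hβ ≫ piHom h G L hV hE hβ = 0 := by
        ext u
        change (piHom h G L hV hE hβ).hom ((uIncl h G L hE hβ).hom u) = 0
        rw [uIncl_apply, piHom_mk, (Phi_eq_zero_iff h hβ _).2 ⟨rfl, u.2⟩, map_zero]
        rfl
      rw [this]
      rfl)

theorem sc_shortExact (hV : OrdDiagSpec) (hE : OrdEquivSpec) (hD : AboveSpec)
    (hX : ExistsOrdSpec) (hβ : IsDict S' L β) (hS : S.Nonempty) (H : Subgroup G) :
    (sc h G L hV hE hβ H).ShortExact := by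
  refine H295.rep_shortExact_of (k := ℤ) (sc h G L hV hE hβ H) ?_ ?_ ?_
  · -- injectivity of `u ↦ [(u, 0)]`
    intro (u : unitsT h L β) (v : unitsT h L β) huv
    have h1 : (principal S' L).mkQ ((u : Additive (AS S' L)ˣ), 0) =
        (principal S' L).mkQ ((v : Additive (AS S' L)ˣ), 0) := huv
    rw [← sub_eq_zero, ← map_sub] at h1
    obtain ⟨x, hx⟩ := (Submodule.Quotient.mk_eq_zero _).1 h1
    have hx1 : unitsDiag S' L x =
        (u : Additive (AS S' L)ˣ) - (v : Additive (AS S' L)ˣ) := by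
      have := congrArg Prod.fst hx
      simpa using this
    have h2 : unitsDiag S L x = 0 := by
      rw [← jRes_unitsDiag h L x, hx1, map_sub, u.2.1, v.2.1, sub_zero]
    have h3 : x = 0 := SesH604.unitsDiag_injective S L hS (by rw [h2, map_zero])
    rw [h3, map_zero] at hx1
    exact Subtype.ext (sub_eq_zero.1 hx1.symm)
  · -- exactness in the middle
    intro c hc
    obtain ⟨y, rfl⟩ := Submodule.mkQ_surjective _ c
    have h1 : (principal S L).mkQ (Phi h L β y) = 0 := hc
    obtain ⟨x, hx⟩ := (Submodule.Quotient.mk_eq_zero _).1 h1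
    have h2 : Phi h L β (y - diagHom S' L x) = 0 := by
      rw [map_sub, Phi_diagHom h hV hβ, sub_eq_zero]
      exact hx.symm
    obtain ⟨h3, h4⟩ := (Phi_eq_zero_iff h hβ _).1 h2
    refine ⟨⟨(y - diagHom S' L x).1, h4⟩, ?_⟩
    change (principal S' L).mkQ ((y - diagHom S' L x).1, 0) = (principal S' L).mkQ y
    have h5 : (((y - diagHom S' L x).1, 0) : JD S' L) = y - diagHom S' L x :=
      Prod.ext rfl h3.symm
    rw [h5, map_sub, sub_eq_self]
    exact (Submodule.Quotient.mk_eq_zero _).2 ⟨x, rfl⟩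
  · -- surjectivity of `π`
    intro c
    obtain ⟨z, rfl⟩ := Submodule.mkQ_surjective _ c
    obtain ⟨y, rfl⟩ := Phi_surjective h hV hD hX hβ z
    exact ⟨(principal S' L).mkQ y, rfl⟩

/-! ## The long exact sequence -/

theorem coeffMap_bijective (hV : OrdDiagSpec) (hE : OrdEquivSpec) (hD : AboveSpec)
    (hX : ExistsOrdSpec) (hβ : IsDict S' L β) (hS : S.Nonempty) (H : Subgroup G) (n : ℕ)
    (hz1 : Limits.IsZero (groupCohomology (T.resSub (UTRep h G L hE hβ) H) n))
    (hz2 : Limits.IsZero (groupCohomology (T.resSub (UTRep h G L hE hβ) H) (n + 1))) :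
    Function.Bijective
      (T.coeffMap ((Rep.resFunctor H.subtype).map (piHom h G L hV hE hβ)) n).hom := by
  have hSE := sc_shortExact h G L hV hE hD hX hβ hS H
  constructor
  · rw [injective_iff_map_eq_zero]
    intro y hy
    have hex := mapShortComplex₂_exact hSE n
    obtain ⟨x, hx⟩ := (ShortComplex.moduleCat_exact_iff _).mp hex y hy
    have hx0 : x = 0 := by
      haveI : Subsingleton ↑(groupCohomology (T.resSub (UTRep h G L hE hβ) H) n) :=
        ModuleCat.isZero_iff_subsingleton.mp hz1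
      exact Subsingleton.elim (α := ↑(groupCohomology (T.resSub (UTRep h G L hE hβ) H) n)) x 0
    rw [← hx, hx0, map_zero]
    rfl
  · intro z
    have hex := mapShortComplex₃_exact hSE (i := n) (j := n + 1) rfl
    have hδ : (groupCohomology.δ hSE n (n + 1) rfl).hom z = 0 := by
      haveI : Subsingleton ↑(groupCohomology (T.resSub (UTRep h G L hE hβ) H) (n + 1)) :=
        ModuleCat.isZero_iff_subsingleton.mp hz2
      exact Subsingleton.elim
        (α := ↑(groupCohomology (T.resSub (UTRep h G L hE hβ) H) (n + 1))) _ 0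
    obtain ⟨y, hy⟩ := (ShortComplex.moduleCat_exact_iff _).mp hex z hδ
    exact ⟨y, hy⟩

/-! ## The theorem -/

/-- **G-SIND** (independence of `S`), modulo the dictionary `PlacePrimeSpec` and the sub-leaves
of `SIndH601/Spec.lean`. -/
theorem sIndep_of (hPL1 : PlacePrimeSpec) (hV : OrdDiagSpec) (hE : OrdEquivSpec)
    (hD : AboveSpec) (hX : ExistsOrdSpec) (hU : UnitsVanishSpec) : SIndepSpec := by
  intro S S' h G L _ _ _ _ _ _ hS hur
  obtain ⟨β, hβ⟩ := isDict_of_placePrime hPL1 S' L
  refine ⟨Phi h L β, piHom h G L hV hE hβ, ?_, ?_, ?_, ?_, ?_, ?_, ?_⟩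
  · exact fun g y => Phi_equivariant h G hE hβ g y
  · exact fun x => Phi_diagHom h hV hβ x
  · exact fun y => Phi_fst h L β y
  · exact fun d => Phi_zero_left h L β d
  · exact fun y => piHom_mk h G L hV hE hβ y
  · exact Phi_surjective h hV hD hX hβ
  · intro H n hn
    exact coeffMap_bijective h G L hV hE hD hX hβ hS H n
      (hU S S' h G L β hβ hS hur (unitsT_stable h G hE hβ) H n hn)
      (hU S S' h G L β hβ hS hur (unitsT_stable h G hE hβ) H (n + 1) (Nat.succ_pos n))

end Fermat.Agent.S55.G.SIndH601
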